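/-
Row 37 (S43), block TAME (architect helper173): THE CONTRACT.

`A` a valuation subring of `ℚ̄` over the prime `q`, `I` its inertia group, `ζ` a primitive `q`-th root of
unity, `r : G_ℚ → G` a homomorphism of finite level such that every element of `I` has an image of order
prime to `q` ("wild inertia acts trivially").  Then there are `σ ∈ I` and a Frobenius `φ` at `A` fixing `ζ`
such that
* `r(I)` is generated by `r σ`, compatibly with the action on `ζ`;
* the cyclotomic character of `σ` generates `(ℤ/q)ˣ`;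
* `r φ * r σ = r σ ^ q * r φ`.
Only definitions.
-/
import Fermat.Agent.Lib.InertiaField.Defs
import Fermat.Prelude.Def_EllipticCurve_FrobeniusTrace

set_option autoImplicit false

namespace Fermat.Agent.S43.Tame

open Fermat.Agent.Lib.InertiaField

/-- `r` factors through a finite level. -/
def FinLevel {G : Type} [Group G] (r : GQ →* G) : Prop :=
  ∃ L : IntermediateField ℚ Qb, FiniteDimensional ℚ L ∧ ∀ σ : GQ, (∀ x ∈ L, σ x = x) → r σ = 1

/-- Every element of the inertia group of `A` has an image of order prime to `q`. -/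
def TameAt {G : Type} [Group G] (r : GQ →* G) (A : ValuationSubring Qb) (q : ℕ) : Prop :=
  ∀ τ ∈ A.inertiaSubgroupIn ℚ, ∃ m : ℕ, ¬ q ∣ m ∧ r τ ^ m = 1

/-- **The contract of the block TAME.** -/
def TameStatement : Prop :=
  ∀ (q : ℕ), q.Prime → ∀ (A : ValuationSubring Qb), A.LiesOverPrime q →
  ∀ ζ : Qb, IsPrimitiveRoot ζ q → ∀ (G : Type) [Group G] (r : GQ →* G), FinLevel r → TameAt r A q →
    ∃ σ ∈ A.inertiaSubgroupIn ℚ, ∃ φ : GQ, A.IsFrobeniusAt φ q ∧ φ ζ = ζ ∧
      (∀ τ ∈ A.inertiaSubgroupIn ℚ, ∃ j : ℕ, r τ = r σ ^ j ∧ τ ζ = (σ ^ j) ζ) ∧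
      (∀ a : ℕ, ¬ q ∣ a → ∃ j : ℕ, (σ ^ j) ζ = ζ ^ a) ∧
      r φ * r σ = r σ ^ q * r φ

end Fermat.Agent.S43.Tame
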