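/-
Row 37 (S43), block TAME (architect helper173), node T2: conjugation of tame inertia by a Frobenius, on a
root `ν` of `X ^ e - q`, `q ∤ e`.
-/
import Fermat.Agent.S43.Tame.Contract
import Fermat.Agent.Lib.InertiaField.Frob
import Fermat.Agent.Lib.InertiaField.Closed

set_option autoImplicit false

namespace Fermat.Agent.S43.Tame

open Fermat.Agent.Lib.InertiaField

variable {A : ValuationSubring Qb} {q e : ℕ} {ν : Qb}

theorem ne_zero_of_pow (hq : q.Prime) (he : ¬ q ∣ e) (hν : ν ^ e = (q : Qb)) : ν ≠ 0 := by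
  rintro rfl
  have he0 : e ≠ 0 := fun h => he (h ▸ dvd_zero q)
  rw [zero_pow he0] at hν
  exact (Nat.cast_ne_zero.2 hq.ne_zero : (q : Qb) ≠ 0) hν.symm

theorem div_pow_eq_one (hq : q.Prime) (hν : ν ^ e = (q : Qb)) (g : GQ) : (g ν / ν) ^ e = 1 := by
  rw [div_pow, ← map_pow, hν, map_natCast, div_self (Nat.cast_ne_zero.2 hq.ne_zero)]

theorem inertia_fix_root (hq : q.Prime) (hA : A.LiesOverPrime q) (he : ¬ q ∣ e) {σ : GQ}
    (hσ : σ ∈ A.inertiaSubgroupIn ℚ) {ξ : Qb} (hξ : ξ ^ e = 1) : σ ξ = ξ :=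
  (mem_K0_iff A _).1 (rootOfUnity_mem_K0 A q hq hA he hξ) σ hσ

theorem pow_apply_eq (hq : q.Prime) (hA : A.LiesOverPrime q) (he : ¬ q ∣ e)
    (hν : ν ^ e = (q : Qb)) {σ : GQ} (hσ : σ ∈ A.inertiaSubgroupIn ℚ) (k : ℕ) :
    (σ ^ k) ν = (σ ν / ν) ^ k * ν := by
  have hν0 := ne_zero_of_pow hq he hν
  induction k with
  | zero => simp
  | succ k ih =>
    rw [pow_succ', AlgEquiv.mul_apply, ih, map_mul, map_pow,
      inertia_fix_root hq hA he hσ (div_pow_eq_one hq hν σ), pow_succ]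
    field_simp

/-- the Kummer character is multiplicative on the inertia group -/
theorem mul_apply_div (hq : q.Prime) (hA : A.LiesOverPrime q) (he : ¬ q ∣ e)
    (hν : ν ^ e = (q : Qb)) {σ : GQ} (hσ : σ ∈ A.inertiaSubgroupIn ℚ) (τ : GQ) :
    (σ * τ) ν / ν = (σ ν / ν) * (τ ν / ν) := by
  have hν0 := ne_zero_of_pow hq he hν
  have h1 : τ ν = (τ ν / ν) * ν := by field_simp
  rw [AlgEquiv.mul_apply]
  conv_lhs => rw [h1]
  rw [map_mul, inertia_fix_root hq hA he hσ (div_pow_eq_one hq hν τ)]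
  field_simp

/-- `φ σ φ⁻¹` and `σ ^ q` agree on `ν`. -/
theorem conj_apply (hq : q.Prime) (hA : A.LiesOverPrime q) (he : ¬ q ∣ e)
    (hν : ν ^ e = (q : Qb)) {σ φ : GQ} (hσ : σ ∈ A.inertiaSubgroupIn ℚ)
    (hφ : A.IsFrobeniusAt φ q) : (φ * σ * φ⁻¹) ν = (σ ^ q) ν := by
  have hν0 := ne_zero_of_pow hq he hν
  set ξ := σ ν / ν with hξ
  set η := φ⁻¹ ν / ν with hη
  have hξe : ξ ^ e = 1 := div_pow_eq_one hq hν σ
  have hηe : η ^ e = 1 := div_pow_eq_one hq hν φ⁻¹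
  have h1 : φ⁻¹ ν = η * ν := by rw [hη]; field_simp
  have h2 : σ ν = ξ * ν := by rw [hξ]; field_simp
  have h3 : φ ξ = ξ ^ q := frob_apply_isTeich A q hq hA hφ (Or.inr ⟨e, he, hξe⟩)
  have h4 : φ (η * ν) = ν := by
    rw [← h1, ← AlgEquiv.mul_apply, mul_inv_cancel, AlgEquiv.one_apply]
  rw [pow_apply_eq hq hA he hν hσ, ← hξ, AlgEquiv.mul_apply, AlgEquiv.mul_apply, h1, map_mul σ,
    inertia_fix_root hq hA he hσ hηe, h2]
  have h5 : η * (ξ * ν) = ξ * (η * ν) := by ring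
  rw [h5, map_mul, h3, h4]

/-- `(σ ^ q)⁻¹ φ σ φ⁻¹` is an element of the inertia group fixing `ν`. -/
theorem conj_fix (hq : q.Prime) (hA : A.LiesOverPrime q) (he : ¬ q ∣ e)
    (hν : ν ^ e = (q : Qb)) {σ φ : GQ} (hσ : σ ∈ A.inertiaSubgroupIn ℚ)
    (hφ : A.IsFrobeniusAt φ q) :
    (σ ^ q)⁻¹ * (φ * σ * φ⁻¹) ∈ A.inertiaSubgroupIn ℚ ∧
      ((σ ^ q)⁻¹ * (φ * σ * φ⁻¹)) ν = ν := by
  refine ⟨mul_mem (inv_mem (pow_mem hσ q)) (conj_mem_inertia A hφ.mem_decompositionSubgroup hσ), ?_⟩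
  rw [AlgEquiv.mul_apply, conj_apply hq hA he hν hσ hφ, ← AlgEquiv.mul_apply, inv_mul_cancel,
    AlgEquiv.one_apply]

end Fermat.Agent.S43.Tame
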