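/-
Row 37 (S43), block TAME (architect helper173), node T3: the inertia group at `q` acts transitively on the
primitive `q`-th roots of unity; a Frobenius fixing `ζ`.
-/
import Fermat.Agent.S43.Tame.Contract
import Fermat.Agent.S15.FL.UnifA
import Fermat.Agent.S56.Flat.Ram.Zeta
import Fermat.Agent.Lib.Frobenius

set_option autoImplicit false

namespace Fermat.Agent.S43.Tame

open Fermat.Agent.Lib.InertiaField

variable {A : ValuationSubring Qb} {q : ℕ} {ζ : Qb}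

/-- the orbit of `ζ - 1` has at least `q - 1` elements -/
theorem le_ncard_orb_zeta (hq : q.Prime) (hA : A.LiesOverPrime q) (hζ : IsPrimitiveRoot ζ q) :
    q - 1 ≤ (S15.FL.orb A (ζ - 1)).ncard := by
  have hq0 : (q : Qb) ≠ 0 := Nat.cast_ne_zero.2 hq.ne_zero
  have hval := S56.Flat.Ram.val_zeta_sub_one A.valuation q hq ζ hζ.pow_eq_one (hζ.ne_one hq.one_lt)
  refine S15.FL.le_ncard_orb hq hA (Nat.sub_pos_of_lt hq.one_lt) (u := (ζ - 1) ^ (q - 1) / q) ?_
    (by field_simp)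
  show A.valuation ((ζ - 1) ^ (q - 1) / q) = 1
  rw [map_div₀, map_pow, hval, div_self ((map_ne_zero _).2 hq0)]

/-- the inertia group acts transitively on the primitive `q`-th roots of unity -/
theorem exists_inertia_zeta (hq : q.Prime) (hA : A.LiesOverPrime q) (hζ : IsPrimitiveRoot ζ q)
    {a : ℕ} (ha : ¬ q ∣ a) : ∃ τ ∈ A.inertiaSubgroupIn ℚ, τ ζ = ζ ^ a := by
  classical
  have : NeZero q := ⟨hq.ne_zero⟩
  -- the orbit is contained in `{μ - 1 | μ primitive}`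
  set T : Finset Qb := (primitiveRoots q Qb).image (fun μ => μ - 1) with hT
  have hsub : S15.FL.orb A (ζ - 1) ⊆ (T : Set Qb) := by
    rintro y ⟨s, -, rfl⟩
    rw [Finset.mem_coe, hT, Finset.mem_image]
    refine ⟨s ζ, (mem_primitiveRoots hq.pos).2 (hζ.map_of_injective s.injective), ?_⟩
    rw [map_sub, map_one]
  have hcard : (T : Set Qb).ncard ≤ (S15.FL.orb A (ζ - 1)).ncard := by
    rw [Set.ncard_coe_finset]
    refine (Finset.card_image_le).trans ?_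
    rw [hζ.card_primitiveRoots, Nat.totient_prime hq]
    exact le_ncard_orb_zeta hq hA hζ
  have heq := Set.eq_of_subset_of_ncard_le hsub hcard (Finset.finite_toSet _)
  have hmem : ζ ^ a - 1 ∈ S15.FL.orb A (ζ - 1) := by
    rw [heq, Finset.mem_coe, hT, Finset.mem_image]
    exact ⟨ζ ^ a, (mem_primitiveRoots hq.pos).2
      (hζ.pow_of_coprime a ((Nat.Prime.coprime_iff_not_dvd hq).2 ha).symm), rfl⟩
  obtain ⟨τ, hτ, h⟩ := hmem
  refine ⟨τ, hτ, ?_⟩
  rw [map_sub, map_one] at h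
  exact sub_left_injective h

/-- the product of an element of the inertia group and a Frobenius is a Frobenius -/
theorem isFrobeniusAt_mul {τ φ : GQ} (hτ : τ ∈ A.inertiaSubgroupIn ℚ)
    (hφ : A.IsFrobeniusAt φ q) : A.IsFrobeniusAt (τ * φ) q := by
  have hτd : τ ∈ A.decompositionSubgroup ℚ := inertia_le_decomposition A hτ
  obtain ⟨hd, h⟩ := hφ
  refine ⟨mul_mem hτd hd, fun x => ?_⟩
  have h1 : (⟨τ * φ, mul_mem hτd hd⟩ : A.decompositionSubgroup ℚ) = ⟨τ, hτd⟩ * ⟨φ, hd⟩ := rfl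
  rw [h1, mul_smul, h]
  obtain ⟨y, hy⟩ := IsLocalRing.residue_surjective (x ^ q)
  rw [← hy, ← IsLocalRing.ResidueField.residue_smul, ← sub_eq_zero, ← map_sub,
    IsLocalRing.residue_eq_zero_iff, ← ValuationSubring.coe_mem_nonunits_iff]
  exact apply_sub_mem_nonunits A hτ y.2

/-- a Frobenius fixing `ζ` -/
theorem exists_frob_fix (hq : q.Prime) (hA : A.LiesOverPrime q) (hζ : IsPrimitiveRoot ζ q) :
    ∃ φ : GQ, A.IsFrobeniusAt φ q ∧ φ ζ = ζ := by
  have : NeZero q := ⟨hq.ne_zero⟩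
  obtain ⟨φ₀, hφ₀⟩ := Lib.Frobenius.exists_isFrobeniusAt A q hq hA
  -- `φ₀⁻¹ ζ = ζ ^ a`
  have hprim : IsPrimitiveRoot (φ₀⁻¹ ζ) q := hζ.map_of_injective φ₀⁻¹.injective
  obtain ⟨a, -, ha⟩ := hζ.eq_pow_of_pow_eq_one hprim.pow_eq_one
  have hqa : ¬ q ∣ a := by
    intro hdvd
    obtain ⟨c, rfl⟩ := hdvd
    rw [pow_mul, hζ.pow_eq_one, one_pow] at ha
    exact hprim.ne_one hq.one_lt ha.symm
  obtain ⟨τ, hτ, hτζ⟩ := exists_inertia_zeta hq hA hζ hqa
  -- `φ₀ τ φ₀⁻¹ φ₀ = φ₀ τ`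
  refine ⟨(φ₀ * τ * φ₀⁻¹) * φ₀,
    isFrobeniusAt_mul (conj_mem_inertia A hφ₀.mem_decompositionSubgroup hτ) hφ₀, ?_⟩
  rw [inv_mul_cancel_right, AlgEquiv.mul_apply, hτζ, ha, ← AlgEquiv.mul_apply, mul_inv_cancel,
    AlgEquiv.one_apply]

end Fermat.Agent.S43.Tame
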