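/-
Row 37 (S43), block TAME (architect helper173), node T0: wild elements of the inertia group.
(Copy, under new names, of the first half of helper176's `S15/HG/Tame.lean`.)
-/
import Fermat.Agent.S43.Tame.Contract
import Fermat.Agent.S05.Inertia

set_option autoImplicit false

namespace Fermat.Agent.S43.Tame

open Fermat.Agent.Lib.InertiaField

/-- Wild elements. -/
def Wild (A : ValuationSubring Qb) (σ : GQ) : Prop :=
  ∀ x : Qb, x ≠ 0 → A.valuation (σ x - x) < A.valuation x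

theorem val_eq (A : ValuationSubring Qb) {σ : GQ}
    (hσ : σ ∈ A.inertiaSubgroupIn ℚ) (x : Qb) : A.valuation (σ x) = A.valuation x := by
  have : Algebra.IsAlgebraic ℚ Qb := AlgebraicClosure.isAlgebraic ℚ
  exact S05.inertia_valuation_eq A hσ x

theorem wild_pow (A : ValuationSubring Qb) {σ : GQ}
    (hσ : σ ∈ A.inertiaSubgroupIn ℚ) (hW : Wild A σ) (t : ℕ) :
    Wild A (σ ^ t) := by
  intro x hx
  induction t with
  | zero =>
    rw [pow_zero, AlgEquiv.one_apply, sub_self, map_zero]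
    exact zero_lt_iff.2 ((map_ne_zero _).2 hx)
  | succ t ih =>
    have h1 : (σ ^ (t + 1)) x - x = σ ((σ ^ t) x - x) + (σ x - x) := by
      rw [pow_succ', AlgEquiv.mul_apply, map_sub]
      ring
    rw [h1]
    refine Valuation.map_add_lt _ ?_ (hW x hx)
    rw [val_eq A hσ]
    exact ih

theorem wild_fix {N : ℕ} (hN : N.Prime) (A : ValuationSubring Qb)
    (hA : A.LiesOverPrime N) {σ : GQ} (hσ : σ ∈ A.inertiaSubgroupIn ℚ)
    (hW : Wild A σ) {m : ℕ} (hm : ¬ N ∣ m) {b : Qb} (hb : (σ ^ m) b = b) :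
    σ b = b := by
  by_contra hne
  set x := σ b - b with hx
  have hx0 : x ≠ 0 := sub_ne_zero.2 hne
  have hsum : ∑ t ∈ Finset.range m, (σ ^ t) x = 0 := by
    have h1 : ∀ t : ℕ, (σ ^ t) x = (σ ^ (t + 1)) b - (σ ^ t) b := by
      intro t
      rw [hx, map_sub, pow_succ, AlgEquiv.mul_apply]
    simp_rw [h1]
    rw [Finset.sum_range_sub (fun t => (σ ^ t) b), hb, pow_zero, AlgEquiv.one_apply, sub_self]
  have h1 : (m : Qb) * x = - ∑ t ∈ Finset.range m, ((σ ^ t) x - x) := by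
    rw [Finset.sum_sub_distrib, hsum, Finset.sum_const, Finset.card_range, nsmul_eq_mul]
    ring
  have hvx : A.valuation x ≠ 0 := (map_ne_zero _).2 hx0
  have h2 : A.valuation (∑ t ∈ Finset.range m, ((σ ^ t) x - x)) < A.valuation x :=
    Valuation.map_sum_lt _ hvx (fun t _ => wild_pow A hσ hW t x hx0)
  have h3 : A.valuation (m : Qb) = 1 := by
    have := S05.valuation_intCast_eq_one A hN hA (n := (m : ℤ))
      (fun h => hm (Int.natCast_dvd_natCast.1 h))
    simpa using this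
  rw [← Valuation.map_neg, ← h1, map_mul, h3, one_mul] at h2
  exact lt_irrefl _ h2

theorem wild_comm (A : ValuationSubring Qb) {σ τ : GQ}
    (hσ : σ ∈ A.inertiaSubgroupIn ℚ) (hτ : τ ∈ A.inertiaSubgroupIn ℚ) :
    Wild A ((τ * σ)⁻¹ * (σ * τ)) := by
  intro x hx
  have hinv : (τ * σ)⁻¹ ∈ A.inertiaSubgroupIn ℚ := inv_mem (mul_mem hτ hσ)
  have h1 : ((τ * σ)⁻¹ * (σ * τ)) x - x = (τ * σ)⁻¹ (σ (τ x) - τ (σ x)) := by
    rw [map_sub, AlgEquiv.mul_apply, AlgEquiv.mul_apply, ← AlgEquiv.mul_apply τ σ x,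
      ← AlgEquiv.mul_apply (τ * σ)⁻¹ (τ * σ) x, inv_mul_cancel, AlgEquiv.one_apply]
  rw [h1, val_eq A hinv]
  have hσx : σ x ≠ 0 := (map_ne_zero σ).2 hx
  have hτx : τ x ≠ 0 := (map_ne_zero τ).2 hx
  have hvx : A.valuation x ≠ 0 := (map_ne_zero _).2 hx
  have hu : A.valuation (τ x / x) = 1 := by
    rw [map_div₀, val_eq A hτ, div_self hvx]
  have hw : A.valuation (σ x / x) = 1 := by
    rw [map_div₀, val_eq A hσ, div_self hvx]
  have key : σ (τ x) - τ (σ x) =
      ((σ (τ x / x) - τ x / x) * (σ x / x) - (τ (σ x / x) - σ x / x) * (τ x / x)) * x := by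
    rw [map_div₀, map_div₀]
    field_simp
    ring
  rw [key, map_mul]
  have h2 : A.valuation ((σ (τ x / x) - τ x / x) * (σ x / x)) < 1 := by
    rw [map_mul, hw, mul_one]
    exact S05.inertia_valuation_sub_lt_one A hσ hu.le
  have h3 : A.valuation ((τ (σ x / x) - σ x / x) * (τ x / x)) < 1 := by
    rw [map_mul, hu, mul_one]
    exact S05.inertia_valuation_sub_lt_one A hτ hw.le
  have h4 := Valuation.map_sub_lt _ h2 h3
  calc _ < 1 * A.valuation x := by
        exact mul_lt_mul_of_pos_right h4 (zero_lt_iff.2 hvx)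
    _ = _ := one_mul _

theorem exists_pow (L : IntermediateField ℚ Qb) [FiniteDimensional ℚ L] (τ : GQ) :
    ∃ n : ℕ, 0 < n ∧ ∀ x ∈ L, (τ ^ n) x = x := by
  obtain ⟨a, b, hab, h⟩ := Finite.exists_ne_map_eq_of_infinite
    (fun n : ℕ => ((τ ^ n : GQ) : Qb →ₐ[ℚ] Qb).comp L.val)
  have key : ∀ a b : ℕ, a < b →
      ((τ ^ a : GQ) : Qb →ₐ[ℚ] Qb).comp L.val = ((τ ^ b : GQ) : Qb →ₐ[ℚ] Qb).comp L.val →
      ∃ n : ℕ, 0 < n ∧ ∀ x ∈ L, (τ ^ n) x = x := by
    intro a b hlt h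
    refine ⟨b - a, by omega, fun x hx => ?_⟩
    have h1 : (τ ^ a) x = (τ ^ b) x := DFunLike.congr_fun h (⟨x, hx⟩ : L)
    have hb : b = a + (b - a) := by omega
    rw [hb, pow_add, AlgEquiv.mul_apply] at h1
    exact ((τ ^ a).injective h1).symm
  rcases lt_or_gt_of_ne hab with hlt | hlt
  · exact key a b hlt h
  · exact key b a hlt h.symm

end Fermat.Agent.S43.Tame
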