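/-
Row 37 (S43), block TAME (architect helper173), node T1: a tame homomorphism of finite level is trivial on
the kernel of the Kummer character `σ ↦ σ ν / ν`, `ν ^ e = q`, of the inertia group.
(Group homomorphism version of the second half of helper176's `S15/HG/Tame.lean`.)
-/
import Fermat.Agent.S43.Tame.Wild
import Fermat.Agent.S15.Q.Tame

set_option autoImplicit false

namespace Fermat.Agent.S43.Tame

open Fermat.Agent.Lib.InertiaField

variable {G : Type} [Group G]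

/-- wild elements have trivial image -/
theorem wild_triv {q : ℕ} (hq : q.Prime) (A : ValuationSubring Qb) (hA : A.LiesOverPrime q)
    (r : GQ →* G) (L : IntermediateField ℚ Qb) [FiniteDimensional ℚ L]
    (hL : ∀ σ : GQ, (∀ x ∈ L, σ x = x) → r σ = 1) {τ : GQ}
    (hτ : τ ∈ A.inertiaSubgroupIn ℚ) (hW : Wild A τ) {m : ℕ} (hm : ¬ q ∣ m)
    (hτm : r τ ^ m = 1) : r τ = 1 := by
  obtain ⟨n, hn, hfix⟩ := exists_pow L τ
  obtain ⟨a, m', hm', rfl⟩ := Nat.exists_eq_pow_mul_and_not_dvd hn.ne' q hq.ne_one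
  have h1 : r τ ^ (q ^ a) = 1 := by
    rw [← map_pow]
    apply hL
    intro b hb
    apply wild_fix hq A hA (pow_mem hτ _) (wild_pow A hτ hW _) hm'
    rw [← pow_mul]
    exact hfix b hb
  have hcop : Nat.Coprime (q ^ a) m :=
    Nat.Coprime.pow_left a ((Nat.Prime.coprime_iff_not_dvd hq).2 hm)
  have h4 := pow_gcd_eq_one.2 ⟨h1, hτm⟩
  rwa [hcop.gcd_eq_one, pow_one] at h4

/-- a homomorphism of finite level has finite image -/
theorem finite_range (r : GQ →* G) (L : IntermediateField ℚ Qb) [FiniteDimensional ℚ L]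
    (hL : ∀ σ : GQ, (∀ x ∈ L, σ x = x) → r σ = 1) : Finite r.range := by
  classical
  have hch : ∀ y : r.range, ∃ σ : GQ, r σ = y := fun y => y.2
  choose s hs using hch
  refine Finite.of_injective (fun y : r.range => ((s y : GQ) : Qb →ₐ[ℚ] Qb).comp L.val) ?_
  intro y y' hyy
  apply Subtype.ext
  rw [← hs y, ← hs y']
  have h1 : r ((s y')⁻¹ * s y) = 1 := by
    apply hL
    intro x hx
    have h2 : (s y) x = (s y') x := DFunLike.congr_fun hyy (⟨x, hx⟩ : L)
    rw [AlgEquiv.mul_apply, h2, ← AlgEquiv.mul_apply, inv_mul_cancel, AlgEquiv.one_apply]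
  rw [map_mul, map_inv, inv_mul_eq_one] at h1
  exact h1.symm

/-- **T1.** -/
theorem exists_kummer {q : ℕ} (hq : q.Prime) (A : ValuationSubring Qb) (hA : A.LiesOverPrime q)
    (r : GQ →* G) (hfin : FinLevel r) (hm : TameAt r A q) :
    ∃ (e : ℕ) (ν : Qb), ¬ q ∣ e ∧ ν ^ e = (q : Qb) ∧
      ∀ σ ∈ A.inertiaSubgroupIn ℚ, σ ν = ν → r σ = 1 := by
  classical
  obtain ⟨L, hLfin, hL⟩ := hfin
  set I : Subgroup GQ := A.inertiaSubgroupIn ℚ with hI
  let f : I →* G := r.comp I.subtype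
  have hwild : ∀ τ ∈ I, Wild A τ → r τ = 1 := by
    intro τ hτ hW
    obtain ⟨m, hm1, hm2⟩ := hm τ hτ
    exact wild_triv hq A hA r L hL hτ hW hm1 hm2
  have hcomm : ∀ σ τ : I, f σ * f τ = f τ * f σ := by
    intro σ τ
    have h2 : r ((τ.1 * σ.1)⁻¹ * (σ.1 * τ.1)) = 1 :=
      hwild _ (mul_mem (inv_mem (mul_mem τ.2 σ.2)) (mul_mem σ.2 τ.2)) (wild_comm A σ.2 τ.2)
    rw [map_mul, map_inv, inv_mul_eq_one, map_mul, map_mul] at h2
    exact h2.symm
  let _ : CommGroup f.range :=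
    { (inferInstance : Group f.range) with
      mul_comm := by
        rintro ⟨_, a, rfl⟩ ⟨_, b, rfl⟩
        exact Subtype.ext (hcomm a b) }
  have hfr : Finite r.range := finite_range r L hL
  have hle' : f.range ≤ r.range := by
    rintro _ ⟨a, rfl⟩
    exact ⟨a.1, rfl⟩
  have : Finite f.range :=
    Finite.of_injective (Subgroup.inclusion hle') (Subgroup.inclusion_injective hle')
  set e := Nat.card f.range with he
  have he0 : e ≠ 0 := Nat.card_pos.ne'
  have hqe : ¬ q ∣ e := by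
    intro hdvd
    have := Fact.mk hq
    obtain ⟨⟨_, τ, rfl⟩, hg⟩ := exists_prime_orderOf_dvd_card' q hdvd
    obtain ⟨m, hm1, hm2⟩ := hm τ τ.2
    apply hm1
    rw [← hg]
    apply orderOf_dvd_of_pow_eq_one
    apply Subtype.ext
    exact hm2
  obtain ⟨ν, hν⟩ := IsAlgClosed.exists_pow_nat_eq (q : Qb) (Nat.pos_of_ne_zero he0)
  refine ⟨e, ν, hqe, hν, fun σ hσ hσν => ?_⟩
  by_contra hne
  have hg : (f.rangeRestrict ⟨σ, hσ⟩ : f.range) ≠ 1 := fun h => hne (congrArg Subtype.val h)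
  have : NeZero ((Monoid.exponent f.range : ℕ) : Qb) :=
    ⟨Nat.cast_ne_zero.2 Monoid.exponent_ne_zero_of_finite⟩
  obtain ⟨φ, hφ⟩ := CommGroup.exists_apply_ne_one_of_hasEnoughRootsOfUnity f.range Qb hg
  let ψ : I →* Qbˣ := φ.comp f.rangeRestrict
  let h : GQ → Qb := fun ρ => if hρ : ρ ∈ I then ((ψ ⟨ρ, hρ⟩ : Qbˣ) : Qb) else 1
  have hh : ∀ ρ (hρ : ρ ∈ I), h ρ = ((ψ ⟨ρ, hρ⟩ : Qbˣ) : Qb) := fun ρ hρ => dif_pos hρ
  obtain ⟨k, hk⟩ := S15.Q.exists_zpow_tame hq hqe A hA ν hν h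
    (fun a ha b hb => by
      rw [hh a ha, hh b hb, hh (a * b) (mul_mem ha hb), ← Units.val_mul, ← map_mul]
      rfl)
    (fun a ha => by
      rw [hh a ha, ← Units.val_pow_eq_pow_val, ← map_pow]
      have h1 : (f.rangeRestrict (⟨a, ha⟩ ^ e) : f.range) = 1 := by
        rw [map_pow]
        exact pow_card_eq_one'
      show ((φ (f.rangeRestrict (⟨a, ha⟩ ^ e)) : Qbˣ) : Qb) = 1
      rw [h1, map_one, Units.val_one])
    L
    (fun a ha hfix => by
      rw [hh a ha]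
      have h1 : (f.rangeRestrict ⟨a, ha⟩ : f.range) = 1 := by
        apply Subtype.ext
        exact hL a hfix
      show ((φ (f.rangeRestrict ⟨a, ha⟩) : Qbˣ) : Qb) = 1
      rw [h1, map_one, Units.val_one])
  apply hφ
  apply Units.ext
  have hν0 : ν ≠ 0 := by
    intro h0
    rw [h0, zero_pow he0] at hν
    exact (Nat.cast_ne_zero.2 hq.ne_zero : (q : Qb) ≠ 0) hν.symm
  have h1 := hk σ hσ
  rw [hh σ hσ, hσν, div_self hν0, one_zpow] at h1
  exact h1

end Fermat.Agent.S43.Tame
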