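/-
Row 37 (S43), block TAME (architect helper173): proof of the contract `TameStatement`.
-/
import Fermat.Agent.S43.Tame.Kummer
import Fermat.Agent.S43.Tame.Conj
import Fermat.Agent.S43.Tame.Cyc

set_option autoImplicit false

namespace Fermat.Agent.S43.Tame

open Fermat.Agent.Lib.InertiaField

theorem autToPow_eq_iff {q : ℕ} [NeZero q] {ζ : Qb} (hζ : IsPrimitiveRoot ζ q) (σ τ : GQ) :
    hζ.autToPow ℚ σ = hζ.autToPow ℚ τ ↔ σ ζ = τ ζ := by
  constructor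
  · intro h
    rw [← hζ.autToPow_spec ℚ σ, ← hζ.autToPow_spec ℚ τ, h]
  · intro h
    rw [← hζ.autToPow_spec ℚ σ, ← hζ.autToPow_spec ℚ τ] at h
    exact Units.ext (ZMod.val_injective q (hζ.pow_inj (ZMod.val_lt _) (ZMod.val_lt _) h))

theorem tameStatement : TameStatement := by
  classical
  intro q hq A hA ζ hζ G _ r hfin htame
  have : NeZero q := ⟨hq.ne_zero⟩
  have : Fact q.Prime := ⟨hq⟩
  set I : Subgroup GQ := A.inertiaSubgroupIn ℚ with hI
  set c : GQ →* (ZMod q)ˣ := hζ.autToPow ℚ with hc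
  set r' : GQ →* G × (ZMod q)ˣ := r.prod c with hr'
  have hfin' : FinLevel r' := by
    obtain ⟨L, hLfin, hL⟩ := hfin
    have hζint : IsIntegral ℚ ζ := (AlgebraicClosure.isAlgebraic ℚ).isIntegral.isIntegral ζ
    have : FiniteDimensional ℚ (IntermediateField.adjoin ℚ {ζ}) :=
      IntermediateField.adjoin.finiteDimensional hζint
    refine ⟨L ⊔ IntermediateField.adjoin ℚ {ζ}, IntermediateField.finiteDimensional_sup _ _,
      fun σ hσ => ?_⟩
    have h1 : r σ = 1 := hL σ fun x hx => hσ x ((le_sup_left : L ≤ _) hx)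
    have h2 : σ ζ = ζ := hσ ζ ((le_sup_right : IntermediateField.adjoin ℚ {ζ} ≤ _)
      (IntermediateField.mem_adjoin_simple_self ℚ ζ))
    have h3 : c σ = 1 := by
      rw [← map_one c, hc, autToPow_eq_iff hζ, h2, AlgEquiv.one_apply]
    exact Prod.ext h1 h3
  have htame' : TameAt r' A q := by
    intro τ hτ
    obtain ⟨m, hm1, hm2⟩ := htame τ hτ
    refine ⟨m * (q - 1), ?_, ?_⟩
    · intro hdvd
      rcases (Nat.Prime.dvd_mul hq).1 hdvd with h | h
      · exact hm1 h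
      · have := Nat.le_of_dvd (Nat.sub_pos_of_lt hq.one_lt) h
        have := hq.pos
        omega
    · apply Prod.ext
      · show r τ ^ (m * (q - 1)) = 1
        rw [pow_mul, hm2, one_pow]
      · show c τ ^ (m * (q - 1)) = 1
        rw [mul_comm, pow_mul, ZMod.units_pow_card_sub_one_eq_one, one_pow]
  obtain ⟨e, ν, hqe, hν, hker⟩ := exists_kummer hq A hA r' hfin' htame'
  have he0 : e ≠ 0 := fun h => hqe (h ▸ dvd_zero q)
  have hν0 : ν ≠ 0 := ne_zero_of_pow hq hqe hν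
  -- the Kummer character
  let κ : I →* Qbˣ :=
    { toFun := fun σ => Units.mk0 ((σ : GQ) ν / ν) (div_ne_zero ((map_ne_zero _).2 hν0) hν0)
      map_one' := Units.ext (div_self hν0)
      map_mul' := fun σ τ => Units.ext (mul_apply_div hq hA hqe hν σ.2 τ.1) }
  have hκ1 : ∀ σ : I, κ σ = 1 → r' σ.1 = 1 := by
    intro σ hσ
    apply hker σ.1 σ.2
    have h1 : (σ : GQ) ν / ν = 1 := congrArg Units.val hσ
    rwa [div_eq_one_iff_eq hν0] at h1
  have : NeZero e := ⟨he0⟩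
  have hle : κ.range ≤ rootsOfUnity e Qb := by
    rintro _ ⟨σ, rfl⟩
    rw [mem_rootsOfUnity]
    exact Units.ext (div_pow_eq_one hq hν σ.1)
  have : Finite κ.range :=
    Finite.of_injective (Subgroup.inclusion hle) (Subgroup.inclusion_injective hle)
  obtain ⟨⟨_, σ, rfl⟩, hgen⟩ := IsCyclic.exists_generator (α := κ.range)
  obtain ⟨φ, hφ, hφζ⟩ := exists_frob_fix hq hA hζ
  have hgen' : ∀ τ ∈ I, ∃ j : ℕ, r τ = r σ.1 ^ j ∧ τ ζ = (σ.1 ^ j) ζ := by
    intro τ hτ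
    have h1 := hgen ⟨κ ⟨τ, hτ⟩, ⟨τ, hτ⟩, rfl⟩
    rw [← mem_powers_iff_mem_zpowers] at h1
    obtain ⟨j, hj⟩ := h1
    have h2 : κ σ ^ j = κ ⟨τ, hτ⟩ := congrArg Subtype.val hj
    have h3 : κ ((σ ^ j)⁻¹ * ⟨τ, hτ⟩) = 1 := by
      rw [map_mul, map_inv, map_pow, h2, inv_mul_cancel]
    have h4 : r' ((σ.1 ^ j)⁻¹ * τ) = 1 := hκ1 _ h3
    rw [map_mul, map_inv, inv_mul_eq_one, map_pow] at h4
    refine ⟨j, (congrArg Prod.fst h4).symm, ?_⟩
    have h5 : c σ.1 ^ j = c τ := congrArg Prod.snd h4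
    rw [← map_pow, hc, autToPow_eq_iff hζ] at h5
    exact h5.symm
  refine ⟨σ.1, σ.2, φ, hφ, hφζ, hgen', fun a ha => ?_, ?_⟩
  · obtain ⟨τ, hτ, hτζ⟩ := exists_inertia_zeta hq hA hζ ha
    obtain ⟨j, -, hj⟩ := hgen' τ hτ
    exact ⟨j, by rw [← hj, hτζ]⟩
  · obtain ⟨h1, h2⟩ := conj_fix hq hA hqe hν σ.2 hφ
    have h3 : r ((σ.1 ^ q)⁻¹ * (φ * σ.1 * φ⁻¹)) = 1 := congrArg Prod.fst (hker _ h1 h2)
    rw [map_mul, map_inv, inv_mul_eq_one, map_pow, map_mul, map_mul, map_inv,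
      eq_mul_inv_iff_mul_eq] at h3
    exact h3.symm

end Fermat.Agent.S43.Tame
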