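/-
Row 37 (S43), block TAME (architect helper173): EXPORTS for the consumers (GLUE).

* `tame_monoid`  : `TameStatement` for a homomorphism `ρ : G_ℚ →* M` to a monoid (e.g. `Module.End`);
* `pow_eq_one_of_filtration` : the hypothesis "order prime to `q`" from a two step filtration
  (`(S - 1) W ≤ A₀`, `S = D` on `A₀`, `D ^ n = 1` on `A₀`  ⟹  `S ^ (n p) = 1`).
-/
import Fermat.Agent.S43.Tame.Main

set_option autoImplicit false

namespace Fermat.Agent.S43.Tame

open Fermat.Agent.Lib.InertiaField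

/-- `TameStatement` for a homomorphism to a monoid. -/
theorem tame_monoid {q : ℕ} (hq : q.Prime) (A : ValuationSubring Qb) (hA : A.LiesOverPrime q)
    {ζ : Qb} (hζ : IsPrimitiveRoot ζ q) {M : Type} [Monoid M] (ρ : GQ →* M)
    (hfin : ∃ L : IntermediateField ℚ Qb, FiniteDimensional ℚ L ∧
      ∀ σ : GQ, (∀ x ∈ L, σ x = x) → ρ σ = 1)
    (htame : ∀ τ ∈ A.inertiaSubgroupIn ℚ, ∃ m : ℕ, ¬ q ∣ m ∧ ρ τ ^ m = 1) :
    ∃ σ ∈ A.inertiaSubgroupIn ℚ, ∃ φ : GQ, A.IsFrobeniusAt φ q ∧ φ ζ = ζ ∧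
      (∀ τ ∈ A.inertiaSubgroupIn ℚ, ∃ j : ℕ, ρ τ = ρ σ ^ j ∧ τ ζ = (σ ^ j) ζ) ∧
      (∀ a : ℕ, ¬ q ∣ a → ∃ j : ℕ, (σ ^ j) ζ = ζ ^ a) ∧
      ρ φ * ρ σ = ρ σ ^ q * ρ φ := by
  obtain ⟨L, hL, hL'⟩ := hfin
  obtain ⟨σ, hσ, φ, hφ, hφζ, h1, h2, h3⟩ := tameStatement q hq A hA ζ hζ Mˣ ρ.toHomUnits
    ⟨L, hL, fun σ hσ => Units.ext (by rw [MonoidHom.coe_toHomUnits, hL' σ hσ, Units.val_one])⟩
    (fun τ hτ => by
      obtain ⟨m, hm, hm'⟩ := htame τ hτ
      exact ⟨m, hm, Units.ext (by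
        rw [Units.val_pow_eq_pow_val, MonoidHom.coe_toHomUnits, hm', Units.val_one])⟩)
  refine ⟨σ, hσ, φ, hφ, hφζ, fun τ hτ => ?_, h2, ?_⟩
  · obtain ⟨j, hj, hj'⟩ := h1 τ hτ
    refine ⟨j, ?_, hj'⟩
    have := congrArg Units.val hj
    rwa [Units.val_pow_eq_pow_val, MonoidHom.coe_toHomUnits, MonoidHom.coe_toHomUnits] at this
  · have := congrArg Units.val h3
    rwa [Units.val_mul, Units.val_mul, Units.val_pow_eq_pow_val, MonoidHom.coe_toHomUnits,
      MonoidHom.coe_toHomUnits] at this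

/-- order prime to `q` from a two step filtration -/
theorem pow_eq_one_of_filtration {p : ℕ} [Fact p.Prime] {W : Type*} [AddCommGroup W]
    [Module (ZMod p) W] (S D : Module.End (ZMod p) W) (A₀ : Submodule (ZMod p) W) (n : ℕ)
    (h1 : ∀ x, S x - x ∈ A₀) (h2 : ∀ x ∈ A₀, S x = D x) (hD : ∀ x ∈ A₀, D x ∈ A₀)
    (h3 : ∀ x ∈ A₀, (D ^ n) x = x) : S ^ (n * p) = 1 := by
  have hSD : ∀ k : ℕ, ∀ x ∈ A₀, (S ^ k) x = (D ^ k) x ∧ (D ^ k) x ∈ A₀ := by
    intro k
    induction k with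
    | zero => intro x hx; exact ⟨rfl, hx⟩
    | succ k ih =>
      intro x hx
      obtain ⟨e1, e2⟩ := ih x hx
      rw [pow_succ', pow_succ', Module.End.mul_apply, Module.End.mul_apply, e1, h2 _ e2]
      exact ⟨rfl, hD _ e2⟩
  have hsub : ∀ k : ℕ, ∀ x, (S ^ k) x - x ∈ A₀ := by
    intro k
    induction k with
    | zero => intro x; simp
    | succ k ih =>
      intro x
      have e : (S ^ (k + 1)) x - x = ((S ^ k) (S x) - S x) + (S x - x) := by
        rw [pow_succ, Module.End.mul_apply]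
        abel
      rw [e]
      exact A₀.add_mem (ih _) (h1 x)
  set N : Module.End (ZMod p) W := S ^ n - 1 with hN
  have hN2 : N * N = 0 := by
    ext x
    have hx : N x ∈ A₀ := by
      rw [hN, LinearMap.sub_apply, Module.End.one_apply]
      exact hsub n x
    rw [Module.End.mul_apply, LinearMap.zero_apply]
    conv_lhs => rw [hN, LinearMap.sub_apply, Module.End.one_apply]
    rw [(hSD n _ hx).1, h3 _ hx, sub_self]
  have hNp : N ^ p = 0 := by
    have h2p : 2 ≤ p := (Fact.out : p.Prime).two_le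
    have e : N ^ p = N ^ 2 * N ^ (p - 2) := by rw [← pow_add, Nat.add_sub_cancel' h2p]
    rw [e, pow_two, hN2, zero_mul]
  have hchar : CharP (Module.End (ZMod p) W) p ∨ Subsingleton (Module.End (ZMod p) W) := by
    by_cases hs : Subsingleton (Module.End (ZMod p) W)
    · exact Or.inr hs
    · rw [not_subsingleton_iff_nontrivial] at hs
      exact Or.inl (charP_of_injective_algebraMap
        (FaithfulSMul.algebraMap_injective (ZMod p) (Module.End (ZMod p) W)) p)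
  rcases hchar with hchar | hs
  · have e : S ^ n = N + 1 := by rw [hN]; abel
    rw [pow_mul, e, add_pow_char_of_commute _ (Commute.one_right N), hNp, one_pow, zero_add]
  · exact Subsingleton.elim _ _

end Fermat.Agent.S43.Tame
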