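/-
Row 37 (S43), block TAME, helper24.  THE CHOICE OF `σ` AND `φ` FOR GLUE (COUNT route).

`ρ : G_ℚ → End W` (`W = W_H(n)_m`), `ρ₀ : G_ℚ → End W₀` (`W₀ = W_0(n)_m`), `pr = π_*` equivariant, onto, `ker pr ⊆ T W`,
`T = δ₀ - 1` nilpotent and Galois equivariant (`δ₀` ANY generator of `Δ`; FREE), `(τ - 1)² = 0` on `W₀` for `τ` in the
inertia group `I` of `A ∣ q` (C1 / L0).  Then there are `σ ∈ I` and a Frobenius `φ` at `A` fixing `ζ_q` with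
* `ρ(I) = ⟨ρ σ⟩` compatibly with the action on `ζ_q`, the cyclotomic character of `σ` generates `(ℤ/q)ˣ`;
* `ρ φ ρ σ = (ρ σ) ^ q ρ φ`  (field `tame` of `Glue.Pkg`), the same for `ρ₀`;
* a class of `W₀` (or `W`) fixed by `σ` is fixed by `I`  (so that (O)/(ORTH') applies to `ker N₀`, `N₀ = ρ₀ σ - 1`).
No hypothesis on `K`, `K'`, no filtration at level `H`.
-/
import Fermat.Agent.S43.Tame.Export
import Fermat.Agent.S43.Tame.Lvl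

set_option autoImplicit false

namespace Fermat.Agent.S43.Tame

open Fermat.Agent.Lib.InertiaField

theorem exists_sigma_phi {p q k : ℕ} (hp : p.Prime) (hq : q.Prime) (hpq : p ≠ q)
    (A : ValuationSubring Qb) (hA : A.LiesOverPrime q) {ζ : Qb} (hζ : IsPrimitiveRoot ζ q)
    {W W₀ : Type} [AddCommGroup W] [AddCommGroup W₀] [Finite W] (hW : ∀ x : W, p ^ k • x = 0)
    (ρ : GQ →* AddMonoid.End W) (ρ₀ : GQ →* AddMonoid.End W₀)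
    (hfin : ∃ L : IntermediateField ℚ Qb, FiniteDimensional ℚ L ∧
      ∀ σ : GQ, (∀ x ∈ L, σ x = x) → ρ σ = 1)
    (T : AddMonoid.End W) (hT : IsNilpotent T) (hcomm : ∀ τ : GQ, Commute (ρ τ) T)
    (pr : W →+ W₀) (hsurj : Function.Surjective pr) (hker : ∀ x, pr x = 0 → ∃ y, x = T y)
    (hpr : ∀ (τ : GQ) (x : W), pr (ρ τ x) = ρ₀ τ (pr x))
    (h0 : ∀ τ ∈ A.inertiaSubgroupIn ℚ, ∀ y : W₀, ρ₀ τ (ρ₀ τ y - y) = ρ₀ τ y - y) :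
    ∃ σ ∈ A.inertiaSubgroupIn ℚ, ∃ φ : GQ, A.IsFrobeniusAt φ q ∧ φ ζ = ζ ∧
      (∀ τ ∈ A.inertiaSubgroupIn ℚ, ∃ j : ℕ, ρ τ = ρ σ ^ j ∧ ρ₀ τ = ρ₀ σ ^ j ∧ τ ζ = (σ ^ j) ζ) ∧
      (∀ a : ℕ, ¬ q ∣ a → ∃ j : ℕ, (σ ^ j) ζ = ζ ^ a) ∧
      ρ φ * ρ σ = ρ σ ^ q * ρ φ ∧ ρ₀ φ * ρ₀ σ = ρ₀ σ ^ q * ρ₀ φ ∧
      (∀ x : W, ρ σ x = x → ∀ τ ∈ A.inertiaSubgroupIn ℚ, ρ τ x = x) ∧
      (∀ y : W₀, ρ₀ σ y = y → ∀ τ ∈ A.inertiaSubgroupIn ℚ, ρ₀ τ y = y) := by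
  have hunit : ∀ τ : GQ, IsUnit (ρ τ) := fun τ => (Group.isUnit τ).map ρ
  -- `ρ₀` is determined by `ρ`
  have hdet : ∀ τ τ' : GQ, ρ τ = ρ τ' → ρ₀ τ = ρ₀ τ' := by
    intro τ τ' h
    ext y
    obtain ⟨x, rfl⟩ := hsurj y
    rw [← hpr, ← hpr, h]
  obtain ⟨σ, hσ, φ, hφ, hφζ, h1, h2, h3⟩ := tame_monoid hq A hA hζ ρ hfin (fun τ hτ =>
    exists_pow_eq_one_of_level_zero hp hq hpq hW (ρ τ) T (hunit τ) (hcomm τ) hT pr hsurj hker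
      (ρ₀ τ) (hpr τ) (h0 τ hτ))
  have h1' : ∀ τ ∈ A.inertiaSubgroupIn ℚ,
      ∃ j : ℕ, ρ τ = ρ σ ^ j ∧ ρ₀ τ = ρ₀ σ ^ j ∧ τ ζ = (σ ^ j) ζ := by
    intro τ hτ
    obtain ⟨j, hj, hj'⟩ := h1 τ hτ
    refine ⟨j, hj, ?_, hj'⟩
    rw [← map_pow]
    exact hdet _ _ (by rw [hj, map_pow])
  have hfix : ∀ {X : Type} [AddCommGroup X] (f : AddMonoid.End X) (x : X), f x = x →
      ∀ j : ℕ, (f ^ j) x = x := by
    intro X _ f x hx j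
    induction j with
    | zero => rfl
    | succ j ih => rw [pow_succ, Lvl.mul_apply, hx, ih]
  refine ⟨σ, hσ, φ, hφ, hφζ, h1', h2, h3, ?_, ?_, ?_⟩
  · rw [← map_mul, ← map_pow, ← map_mul]
    exact hdet _ _ (by rw [map_mul, map_mul, map_pow, h3])
  · intro x hx τ hτ
    obtain ⟨j, hj, -, -⟩ := h1' τ hτ
    rw [hj]
    exact hfix _ x hx j
  · intro y hy τ hτ
    obtain ⟨j, -, hj, -⟩ := h1' τ hτ
    rw [hj]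
    exact hfix _ y hy j

end Fermat.Agent.S43.Tame
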