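/-
Row 37 (S43), block TAME (architect helper173): the hypothesis `TameAt` in ROUTE Z (exponent `n = p ^ k`).

In route Z the relation `(τ - 1) (τ - ⟨ε τ⟩) = 0` is NOT available on `W_H(n)_m`; what COUNT gives for every
`τ ∈ I_A` is `(τ - 1) (τ - D) W ≤ K_∞ ∩ K_0 = inc (Tor_0)` and `τ = 1` on `inc (Tor_0)`, i.e.
`(τ - 1) (τ - 1) (τ - D) = 0` with `D = ⟨ε τ⟩`, `D ^ (q - 1) = 1`.  This is enough for tameness:

* `pow_eq_one_of_cubic` : `R` a ring with `(n : R) = 0`, `S D : R` commuting, `D ^ m = 1`,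
  `(S - 1) * (S - 1) * (S - D) = 0`  ⟹  `S ^ (m * n * n) = 1`;
* `not_dvd_mul_pow`     : `q ∤ (q - 1) * p ^ k * p ^ k` for primes `q ≠ p`.
Mathlib only.
-/
import Mathlib

set_option autoImplicit false

namespace Fermat.Agent.S43.Tame

section Ring

variable {R : Type*} [Ring R]

/-- `(1 + ν) ^ k = 1 + k ν + (k choose 2) ν ^ 2` if `ν ^ 3 = 0`. -/
theorem one_add_pow_of_cube_eq_zero (ν : R) (h : ν * ν * ν = 0) (k : ℕ) :
    (1 + ν) ^ k = 1 + (k : R) * ν + (k.choose 2 : R) * (ν * ν) := by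
  induction k with
  | zero => simp
  | succ k ih =>
    have hc : ((k + 1).choose 2 : R) = (k : R) + (k.choose 2 : R) := by
      rw [Nat.choose_succ_succ' k 1, Nat.choose_one_right, Nat.cast_add]
    have e : (k.choose 2 : R) * (ν * ν) * ν = 0 := by
      rw [mul_assoc, h, mul_zero]
    rw [pow_succ, ih, hc, Nat.cast_succ]
    have : (1 + (k : R) * ν + (k.choose 2 : R) * (ν * ν)) * (1 + ν) =
        1 + ((k : R) + 1) * ν + ((k : R) + (k.choose 2 : R)) * (ν * ν) +
          (k.choose 2 : R) * (ν * ν) * ν := by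
      noncomm_ring
    rw [this, e, add_zero]

/-- `(1 + ν) ^ (n * n) = 1` if `ν ^ 3 = 0` and `n = 0` in `R`. -/
theorem one_add_pow_sq_eq_one (n : ℕ) (hn : (n : R) = 0) (ν : R) (h : ν * ν * ν = 0) :
    (1 + ν) ^ (n * n) = 1 := by
  rw [one_add_pow_of_cube_eq_zero ν h]
  have h1 : ((n * n : ℕ) : R) = 0 := by rw [Nat.cast_mul, hn, mul_zero]
  have h2 : ((n * n).choose 2 : R) = 0 := by
    -- `(n * n).choose 2 = n * (n * (n * n - 1) / 2)`
    have hev : 2 ∣ n * (n * n - 1) := by
      rcases Nat.even_or_odd n with he | ho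
      · exact Dvd.dvd.mul_right he.two_dvd _
      · apply Dvd.dvd.mul_left
        have : Odd (n * n) := ho.mul ho
        obtain ⟨t, ht⟩ := this
        exact ⟨t, by omega⟩
    obtain ⟨c, hc⟩ := hev
    have : (n * n).choose 2 = n * c := by
      rw [Nat.choose_two_right, mul_assoc, hc, ← mul_assoc, mul_comm n 2, mul_assoc,
        Nat.mul_div_cancel_left _ (by norm_num)]
    rw [this, Nat.cast_mul, hn, zero_mul]
  rw [h1, h2, zero_mul, zero_mul, add_zero, add_zero]

/-- **Tameness from the cubic relation.** -/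
theorem pow_eq_one_of_cubic (n m : ℕ) (hn : (n : R) = 0) (S D : R) (hSD : Commute S D)
    (hD : D ^ m = 1) (h : (S - 1) * (S - 1) * (S - D) = 0) : S ^ (m * n * n) = 1 := by
  set g : R := ∑ i ∈ Finset.range m, S ^ i with hg
  set c : R := ∑ i ∈ Finset.range m, S ^ i * D ^ (m - 1 - i) with hc
  have e1 : S ^ m - 1 = (S - 1) * g := by
    rw [hg, mul_geom_sum]
  have e2 : S ^ m - 1 = (S - D) * c := by
    rw [hc, hSD.mul_geom_sum₂, hD]
  have hSg : Commute S g := by
    rw [hg]
    exact Commute.sum_right _ _ _ fun i _ => (Commute.refl S).pow_right i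
  have hag : Commute (S - 1) g := hSg.sub_left (Commute.one_left g)
  have hν : (S ^ m - 1) * (S ^ m - 1) * (S ^ m - 1) = 0 := by
    calc (S ^ m - 1) * (S ^ m - 1) * (S ^ m - 1)
        = ((S - 1) * g) * ((S - 1) * g) * ((S - D) * c) := by rw [← e1, ← e2]
      _ = g * g * ((S - 1) * (S - 1) * (S - D)) * c := by
          have a1 : (S - 1) * g = g * (S - 1) := hag.eq
          have a2 : (S - 1) * g * ((S - 1) * g) = g * g * ((S - 1) * (S - 1)) := by
            rw [a1, mul_assoc g (S - 1) (g * (S - 1)), ← mul_assoc (S - 1) g (S - 1), a1,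
              mul_assoc g (S - 1) (S - 1), ← mul_assoc g g]
          rw [a2]
          simp only [mul_assoc]
      _ = 0 := by rw [h, mul_zero, zero_mul]
  have e3 : S ^ m = 1 + (S ^ m - 1) := by abel
  rw [mul_assoc, pow_mul, e3]
  exact one_add_pow_sq_eq_one n hn _ hν

end Ring

/-- the exponent is prime to `q`. -/
theorem not_dvd_mul_pow {p q : ℕ} (hp : p.Prime) (hq : q.Prime) (hqp : q ≠ p) (k : ℕ) :
    ¬ q ∣ (q - 1) * p ^ k * p ^ k := by
  intro h
  have hpk : ¬ q ∣ p ^ k := fun h' => hqp ((Nat.prime_dvd_prime_iff_eq hq hp).1 (hq.dvd_of_dvd_pow h'))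
  rcases (hq.dvd_mul).1 h with h | h
  · rcases (hq.dvd_mul).1 h with h | h
    · have := Nat.le_of_dvd (by have := hq.two_le; omega) h
      have := hq.two_le
      omega
    · exact hpk h
  · exact hpk h

/-- `n = 0` in the ring of additive endomorphisms of a group killed by `n`. -/
theorem natCast_end_eq_zero {W : Type*} [AddCommGroup W] (n : ℕ) (hn : ∀ x : W, n • x = 0) :
    ((n : ℕ) : AddMonoid.End W) = 0 := by
  ext x
  rw [AddMonoid.End.natCast_apply, hn]
  rfl

end Fermat.Agent.S43.Tame
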