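/-
Row 37 (S43), block TAME, helper24.  `TameAt` AT LEVEL `H` FROM LEVEL `Γ₀` + FREE  (abstract, Mathlib only).

In the COUNT route there is no subspace `A₀` with `S = D` on it BEFORE `σ` is chosen, so
`pow_eq_one_of_filtration` cannot feed `tame_monoid` at level `H`.  This file does:

`W = W_H(n)_m`, `W₀ = W_0(n)_m`, `n = p ^ k`, `pr = π_*` (onto, `ker pr ⊆ T W`, `T = δ₀ - 1` nilpotent, for ANY
generator `δ₀` of `Δ`), `τ = ρ(τ)` for `τ` in the inertia group at `q ≠ p`, `τ₀` its action on `W₀`,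
`(τ₀ - 1)² = 0` (C1: `(τ - 1) W₀ ⊆ Tor`, `(τ - 1) Tor = 0`).   THEN `τ ^ m = 1` on `W` for some `m` prime to `q`.

Proof.  `τ` has finite order `q ^ a m`; `θ = τ ^ m` has order `q ^ a`; `θ₀` has order dividing `q ^ a` and `p ^ k`, so
`θ₀ = 1` and `(θ - 1) W ⊆ T W`.  Since `q ^ a` is invertible on `W`, `(θ - 1) W = (θ - 1)² W = …`, hence
`(θ - 1) W ⊆ T ^ j W` for all `j`.
-/
import Mathlib

set_option autoImplicit false

namespace Fermat.Agent.S43.Tame

section Abs

variable {W : Type*} [AddCommGroup W]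

theorem Lvl.mul_apply (f g : AddMonoid.End W) (x : W) : (f * g) x = f (g x) := rfl

theorem Lvl.add_apply (f g : AddMonoid.End W) (x : W) : (f + g) x = f x + g x := rfl

theorem Lvl.one_apply (x : W) : (1 : AddMonoid.End W) x = x := rfl

theorem Lvl.zero_apply (x : W) : (0 : AddMonoid.End W) x = 0 := rfl

theorem Lvl.sum_apply (s : Finset ℕ) (f : ℕ → AddMonoid.End W) (x : W) :
    (∑ i ∈ s, f i) x = ∑ i ∈ s, f i x := by
  classical
  induction s using Finset.induction_on with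
  | empty => rfl
  | insert a s ha ih => rw [Finset.sum_insert ha, Finset.sum_insert ha, Lvl.add_apply, ih]

/-- `θ ^ Q = 1`, `c Q = 1` on `W`  ⟹  `(θ - 1) x ∈ (θ - 1)² W`. -/
theorem Lvl.exists_sq (θ : AddMonoid.End W) (Q : ℕ) (hθ : θ ^ Q = 1) (c : ℕ)
    (hc : ∀ x : W, (c * Q) • x = x) (x : W) : ∃ z : W, θ x - x = θ (θ z - z) - (θ z - z) := by
  -- `G i = 1 + θ + ⋯ + θ ^ (i - 1)`
  set G : ℕ → AddMonoid.End W := fun i => ∑ j ∈ Finset.range i, θ ^ j with hG
  have hG1 : ∀ i : ℕ, ∀ y : W, θ (G i y) - G i y = (θ ^ i) y - y := by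
    intro i y
    induction i with
    | zero =>
      have e : G 0 y = 0 := by simp only [hG, Finset.range_zero, Finset.sum_empty, Lvl.zero_apply]
      rw [e, map_zero, pow_zero, Lvl.one_apply, sub_self, sub_self]
    | succ i ih =>
      have e : G (i + 1) y = G i y + (θ ^ i) y := by
        simp only [hG, Finset.sum_range_succ, Lvl.add_apply]
      rw [e, map_add, pow_succ', Lvl.mul_apply]
      have : θ (G i y) = G i y + ((θ ^ i) y - y) := by rw [← ih]; abel
      rw [this]; abel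
  -- `E = ∑_{i < Q} θ ^ i`, `θ E = E`
  have hE : ∀ y : W, θ (G Q y) = G Q y := by
    intro y
    have := hG1 Q y
    rw [hθ, Lvl.one_apply, sub_self] at this
    exact sub_eq_zero.1 this
  -- `z = - c ∑_{i < Q} G i x`
  refine ⟨-(c • ∑ i ∈ Finset.range Q, G i x), ?_⟩
  have h1 : θ (∑ i ∈ Finset.range Q, G i x) - ∑ i ∈ Finset.range Q, G i x = G Q x - Q • x := by
    rw [map_sum, ← Finset.sum_sub_distrib, Finset.sum_congr rfl fun i _ => hG1 i x,
      Finset.sum_sub_distrib, Finset.sum_const, Finset.card_range]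
    simp only [hG, Lvl.sum_apply]
  have h2 : θ (-(c • ∑ i ∈ Finset.range Q, G i x)) - -(c • ∑ i ∈ Finset.range Q, G i x)
      = x - c • G Q x := by
    rw [map_neg, map_nsmul]
    have : -(c • θ (∑ i ∈ Finset.range Q, G i x)) - -(c • ∑ i ∈ Finset.range Q, G i x)
        = -(c • (θ (∑ i ∈ Finset.range Q, G i x) - ∑ i ∈ Finset.range Q, G i x)) := by
      rw [smul_sub]; abel
    rw [this, h1, smul_sub, ← mul_smul, hc]
    abel
  rw [h2, map_sub, map_nsmul, hE]
  abel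

/-- `(θ - 1) W ⊆ T W`, `(θ - 1) W = (θ - 1)² W`, `T` nilpotent commuting with `θ`  ⟹  `θ = 1`. -/
theorem Lvl.eq_one_of_nilpotent (θ T : AddMonoid.End W) (hcomm : Commute θ T) (hT : IsNilpotent T)
    (h1 : ∀ x, ∃ y, θ x - x = T y)
    (h2 : ∀ x, ∃ z, θ x - x = θ (θ z - z) - (θ z - z)) : θ = 1 := by
  have key : ∀ j : ℕ, ∀ x, ∃ y, θ x - x = (T ^ j) y := by
    intro j
    induction j with
    | zero => intro x; exact ⟨θ x - x, by rw [pow_zero, Lvl.one_apply]⟩
    | succ j ih =>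
      intro x
      obtain ⟨z, hz⟩ := h2 x
      obtain ⟨y, hy⟩ := h1 z
      obtain ⟨y', hy'⟩ := ih y
      refine ⟨y', ?_⟩
      have hθT : θ (T y) = T (θ y) := by
        exact DFunLike.congr_fun hcomm.eq y
      rw [hz, hy, hθT, ← map_sub, hy', pow_succ', Lvl.mul_apply]
  obtain ⟨j, hj⟩ := hT
  ext x
  obtain ⟨y, hy⟩ := key j x
  rw [hj, Lvl.zero_apply] at hy
  exact sub_eq_zero.1 hy

end Abs

/-- **`TameAt` at level `H`** from level `Γ₀` and FREE. -/
theorem exists_pow_eq_one_of_level_zero {W W₀ : Type*} [AddCommGroup W] [AddCommGroup W₀] [Finite W]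
    {p q k : ℕ} (hp : p.Prime) (hq : q.Prime) (hpq : p ≠ q) (hW : ∀ x : W, p ^ k • x = 0)
    (τ T : AddMonoid.End W) (hτ : IsUnit τ) (hcomm : Commute τ T) (hT : IsNilpotent T)
    (pr : W →+ W₀) (hsurj : Function.Surjective pr) (hker : ∀ x, pr x = 0 → ∃ y, x = T y)
    (τ₀ : AddMonoid.End W₀) (hpr : ∀ x, pr (τ x) = τ₀ (pr x))
    (h0 : ∀ y, τ₀ (τ₀ y - y) = τ₀ y - y) :
    ∃ m : ℕ, ¬ q ∣ m ∧ τ ^ m = 1 := by
  classical
  -- finite order
  have : Finite (AddMonoid.End W) := Finite.of_injective (fun f : AddMonoid.End W => (f : W → W))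
    DFunLike.coe_injective
  obtain ⟨u, rfl⟩ := hτ
  have hord : 0 < orderOf u := orderOf_pos u
  obtain ⟨a, m, hm, hN⟩ := Nat.exists_eq_pow_mul_and_not_dvd hord.ne' q hq.ne_one
  refine ⟨m, hm, ?_⟩
  set θ : AddMonoid.End W := (u : AddMonoid.End W) ^ m with hθ
  have hθQ : θ ^ (q ^ a) = 1 := by
    rw [hθ, ← pow_mul, mul_comm, ← hN, ← Units.val_pow_eq_pow_val, pow_orderOf_eq_one, Units.val_one]
  -- level zero
  have hW₀ : ∀ y : W₀, p ^ k • y = 0 := by
    intro y
    obtain ⟨x, rfl⟩ := hsurj y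
    rw [← map_nsmul, hW, map_zero]
  have hprpow : ∀ i : ℕ, ∀ x, pr (((u : AddMonoid.End W) ^ i) x) = (τ₀ ^ i) (pr x) := by
    intro i
    induction i with
    | zero => intro x; rw [pow_zero, pow_zero, Lvl.one_apply, Lvl.one_apply]
    | succ i ih =>
      intro x
      rw [pow_succ, Lvl.mul_apply, ih, hpr, pow_succ, Lvl.mul_apply]
  have hτ₀pow : ∀ i : ℕ, ∀ y, (τ₀ ^ i) y = y + i • (τ₀ y - y) := by
    intro i
    induction i with
    | zero => intro y; rw [pow_zero, Lvl.one_apply, zero_smul, add_zero]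
    | succ i ih =>
      intro y
      rw [pow_succ', Lvl.mul_apply, ih, map_add, map_nsmul, h0, succ_nsmul]
      abel
  have hcop : Nat.Coprime (q ^ a) (p ^ k) :=
    Nat.Coprime.pow _ _ ((Nat.coprime_primes hq hp).2 hpq.symm)
  -- `m • ν = 0` where `ν = τ₀ - 1`
  have hθ₀ : ∀ y, (τ₀ ^ m) y = y := by
    intro y
    have e1 : (q ^ a * m) • (τ₀ y - y) = 0 := by
      obtain ⟨x, rfl⟩ := hsurj y
      have h := hprpow (q ^ a * m) x
      rw [← hN, ← Units.val_pow_eq_pow_val, pow_orderOf_eq_one, Units.val_one,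
        Lvl.one_apply, hN, hτ₀pow] at h
      have : pr x + (q ^ a * m) • (τ₀ (pr x) - pr x) = pr x + 0 := by rw [← h, add_zero]
      exact add_left_cancel this
    have e2 : (p ^ k) • (m • (τ₀ y - y)) = 0 := hW₀ _
    have e3 : (q ^ a) • (m • (τ₀ y - y)) = 0 := by rw [← mul_smul]; exact e1
    have e4 : m • (τ₀ y - y) = 0 := by
      have hg : ((Nat.gcd (q ^ a) (p ^ k) : ℕ) : ℤ) • (m • (τ₀ y - y)) = 0 := by
        rw [Nat.gcd_eq_gcd_ab, add_smul, mul_comm, mul_smul, natCast_zsmul, e3, smul_zero,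
          mul_comm, mul_smul, natCast_zsmul, e2, smul_zero, add_zero]
      rw [hcop.gcd_eq_one] at hg
      simpa using hg
    rw [hτ₀pow, e4, add_zero]
  have h1 : ∀ x, ∃ y, θ x - x = T y := by
    intro x
    apply hker
    rw [map_sub, hθ, hprpow, hθ₀, sub_self]
  -- an inverse of `q ^ a` modulo `p ^ k`
  obtain ⟨c, hc⟩ : ∃ c : ℕ, ∀ x : W, (c * q ^ a) • x = x := by
    by_cases hk : p ^ k = 1
    · refine ⟨0, fun x => ?_⟩
      have := hW x
      rw [hk, one_smul] at this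
      rw [this, smul_zero]
    · have h1lt : 1 < p ^ k := lt_of_le_of_ne (Nat.one_le_pow _ _ hp.pos) (Ne.symm hk)
      obtain ⟨c, -, hc⟩ := Nat.exists_mul_mod_eq_one_of_coprime hcop h1lt
      refine ⟨c, fun x => ?_⟩
      have e : c * q ^ a = p ^ k * (q ^ a * c / p ^ k) + 1 := by
        rw [mul_comm c, ← hc]
        exact (Nat.div_add_mod _ _).symm
      rw [e, add_smul, mul_comm, mul_smul, hW, smul_zero, zero_add, one_smul]
  exact Lvl.eq_one_of_nilpotent θ T (hcomm.pow_left m) hT h1 (Lvl.exists_sq θ (q ^ a) hθQ c hc)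

end Fermat.Agent.S43.Tame
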