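/-
Row 37 (S43), block TAME / GLUE (helper148).  THE HYPOTHESIS `htame` OF `Tame.tame_monoid` AT EXPONENT `n = p ^ k`
(hidden leaf: "every element of the inertia group at `q` acts on `W = W_H(n)_m` with order prime to `q`").  Mathlib only.

`exists_pow_eq_one_of_triv`: `W` killed by `p ^ k`, `δ` (diamond generator) with `δ ^ (p ^ a) = 1`, `g = ρ(τ)` (`τ ∈ I_A`) of finite order,
commuting with `δ`.  INPUTS:  TRIV `(g - 1) W ≤ K₁ = K_∞`;  FREE `ker (δ - 1) = inc W₀`, `inc` injective;  C4 (= INJ)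
`p s = 0, inc s ∈ K₁ → s ∈ Y₀`;  L0 (NodalTarget) `g₀ = 1` on `Y₀`.   OUTPUT: `g ^ (p ^ c) = 1` for some `c`.
NO counting, NO `K₀`, NO relation `H2c / R1`, so it can be used BEFORE the choice of `σ, φ` by TAME.

Proof.  `ord g = p ^ b m'`, `g' = g ^ (p ^ b)`, `W' = (g' - 1) W ≤ K₁` is `δ`-stable.  If `W' ≠ 0` it contains `x ≠ 0` with `p x = 0`,
`δ x = x`; `x = inc y`, `y ∈ Y₀`, so `g' x = x`; then `m' x = (∑_{i<m'} g' ^ i) x = 0` because `x ∈ (g' - 1) W`: `x = 0`.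
-/
import Mathlib

set_option autoImplicit false

namespace Fermat.Agent.S43.Tame

open Polynomial

theorem ppow_C_dvd (p : ℕ) (f : ℤ[X]) (h : f.map (Int.castRingHom (ZMod p)) = 0) :
    C (p : ℤ) ∣ f := by
  rw [Polynomial.C_dvd_iff_dvd_coeff]
  intro i
  have h1 := congrArg (fun g => g.coeff i) h
  simp only [coeff_map, coeff_zero, eq_intCast] at h1
  exact (ZMod.intCast_zmod_eq_zero_iff_dvd _ _).1 h1

theorem ppow_poly (p a : ℕ) [Fact p.Prime] :
    ∃ c : ℤ[X], (X - 1 : ℤ[X]) ^ (p ^ a) = X ^ (p ^ a) - 1 + C (p : ℤ) * c := by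
  have h : ((X - 1 : ℤ[X]) ^ (p ^ a) - (X ^ (p ^ a) - 1)).map (Int.castRingHom (ZMod p)) = 0 := by
    simp only [Polynomial.map_sub, Polynomial.map_pow, Polynomial.map_X, Polynomial.map_one]
    rw [sub_pow_char_pow, one_pow, sub_self]
  obtain ⟨c, hc⟩ := ppow_C_dvd p _ h
  exact ⟨c, by rw [← hc]; ring⟩

variable {W W0 : Type*} [AddCommGroup W] [AddCommGroup W0]

theorem ppow_mul_apply (f g : AddMonoid.End W) (x : W) : (f * g) x = f (g x) := rfl

theorem ppow_sub_apply (f g : AddMonoid.End W) (x : W) : (f - g) x = f x - g x := rfl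

/-- `(δ - 1) ^ (p ^ a)` kills the `p`-torsion. -/
theorem ppow_T_pow (p a : ℕ) [Fact p.Prime] (δ : AddMonoid.End W) (hδ : δ ^ (p ^ a) = 1) (x : W)
    (hx : p • x = 0) : ((δ - 1) ^ (p ^ a)) x = 0 := by
  obtain ⟨c, hc⟩ := ppow_poly p a
  have h := congrArg (aeval δ) hc
  simp only [map_pow, map_sub, map_add, map_mul, map_one, aeval_X, aeval_C] at h
  rw [hδ, sub_self, zero_add] at h
  rw [h, ppow_mul_apply]
  have e : (algebraMap ℤ (AddMonoid.End W) (p : ℤ)) = ((p : ℕ) : AddMonoid.End W) := by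
    simp
  rw [e, AddMonoid.End.natCast_apply, ← map_nsmul, hx, map_zero]

/-- a nilpotent operator has a nonzero kernel vector in the orbit of `x ≠ 0` -/
theorem ppow_exists_last (f : AddMonoid.End W) (x : W) (hx : x ≠ 0) (N : ℕ) (hN : (f ^ N) x = 0) :
    ∃ i : ℕ, (f ^ i) x ≠ 0 ∧ f ((f ^ i) x) = 0 := by
  classical
  have hex : ∃ i, (f ^ i) x = 0 := ⟨N, hN⟩
  have h0 : Nat.find hex ≠ 0 := by
    intro h
    have := Nat.find_spec hex
    rw [h, pow_zero] at this
    exact hx this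
  obtain ⟨i, hi⟩ := Nat.exists_eq_succ_of_ne_zero h0
  refine ⟨i, Nat.find_min hex (by omega), ?_⟩
  have := Nat.find_spec hex
  rwa [hi, Nat.succ_eq_add_one, pow_succ', ppow_mul_apply] at this

theorem exists_pow_eq_one_of_triv (p a k : ℕ) [Fact p.Prime] (hW : ∀ x : W, p ^ k • x = 0)
    (δ g : AddMonoid.End W) (g0 : AddMonoid.End W0) (inc : W0 →+ W)
    (K1 : AddSubgroup W) (Y0 : AddSubgroup W0)
    (hδ : δ ^ (p ^ a) = 1) (hδg : Commute δ g) (m : ℕ) (hm : 0 < m) (hgm : g ^ m = 1)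
    (inc_inj : Function.Injective inc) (inc_g : ∀ y, inc (g0 y) = g (inc y))
    (hinv : ∀ x, δ x = x → ∃ y, inc y = x)
    (h1 : ∀ x, g x - x ∈ K1)
    (inj1 : ∀ s : W0, p • s = 0 → inc s ∈ K1 → s ∈ Y0)
    (hg0 : ∀ y ∈ Y0, g0 y = y) : ∃ c : ℕ, g ^ (p ^ c) = 1 := by
  have hp : p.Prime := Fact.out
  obtain ⟨b, m', hm', rfl⟩ := Nat.exists_eq_pow_mul_and_not_dvd hm.ne' p hp.ne_one
  refine ⟨b, ?_⟩
  set g' : AddMonoid.End W := g ^ (p ^ b) with hg'
  have hg'm : g' ^ m' = 1 := by rw [hg', ← pow_mul, hgm]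
  by_contra hne
  obtain ⟨w, hw⟩ : ∃ w, g' w ≠ w := by
    by_contra hall
    push Not at hall
    exact hne (AddMonoidHom.ext hall)
  set ν : AddMonoid.End W := g' - 1 with hν
  have hνw : ν w ≠ 0 := by
    rw [hν, ppow_sub_apply]
    exact sub_ne_zero.2 hw
  have hK : ∀ (M : ℕ) (x : W), (g ^ M) x - x ∈ K1 := by
    intro M
    induction M with
    | zero => intro x; rw [pow_zero]; simp
    | succ M ih =>
      intro x
      have e : (g ^ (M + 1)) x - x = (g ((g ^ M) x) - (g ^ M) x) + ((g ^ M) x - x) := by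
        rw [pow_succ', ppow_mul_apply]; abel
      rw [e]
      exact K1.add_mem (h1 _) (ih x)
  have hνK : ∀ x, ν x ∈ K1 := fun x => hK _ x
  -- step A: `p`-torsion
  obtain ⟨i, hi, hi'⟩ := ppow_exists_last ((p : ℕ) : AddMonoid.End W) (ν w) hνw k (by
    rw [← Nat.cast_pow, AddMonoid.End.natCast_apply]; exact hW _)
  have hcp : ∀ j : ℕ, Commute (((p : ℕ) : AddMonoid.End W) ^ j) ν := fun j =>
    (Nat.cast_commute p ν).pow_left j
  set x1 : W := ((((p : ℕ) : AddMonoid.End W) ^ i)) (ν w) with hx1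
  have hx1p : p • x1 = 0 := by rw [← AddMonoid.End.natCast_apply]; exact hi'
  have hx1ν : x1 = ν (((((p : ℕ) : AddMonoid.End W) ^ i)) w) := by
    rw [hx1, ← ppow_mul_apply, (hcp i).eq, ppow_mul_apply]
  -- step B: `δ`-fixed
  obtain ⟨j, hj, hj'⟩ := ppow_exists_last (δ - 1) x1 hi (p ^ a) (ppow_T_pow p a δ hδ x1 hx1p)
  have hδν : Commute (δ - 1) ν :=
    ((hδg.pow_right _).sub_right (Commute.one_right δ)).sub_left (Commute.one_left _)
  set x : W := ((δ - 1) ^ j) x1 with hx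
  have hxp : p • x = 0 := by rw [hx, ← map_nsmul, hx1p, map_zero]
  have hxν : ∃ w2, x = ν w2 := by
    refine ⟨((δ - 1) ^ j) (((((p : ℕ) : AddMonoid.End W) ^ i)) w), ?_⟩
    rw [hx, hx1ν, ← ppow_mul_apply, (hδν.pow_left j).eq, ppow_mul_apply]
  have hxδ : δ x = x := by
    rw [ppow_sub_apply] at hj'
    exact sub_eq_zero.1 hj'
  -- step C
  obtain ⟨y, hy⟩ := hinv x hxδ
  have hyp : p • y = 0 := inc_inj (by rw [map_nsmul, hy, hxp, map_zero])
  obtain ⟨w2, hw2⟩ := hxν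
  have hyY : y ∈ Y0 := inj1 y hyp (by rw [hy, hw2]; exact hνK w2)
  have hgx : g x = x := by rw [← hy, ← inc_g, hg0 y hyY]
  have hgx' : ∀ M : ℕ, (g ^ M) x = x := by
    intro M
    induction M with
    | zero => rfl
    | succ M ih => rw [pow_succ, ppow_mul_apply, hgx, ih]
  have hg'x : ∀ M : ℕ, (g' ^ M) x = x := by
    intro M
    rw [hg', ← pow_mul]
    exact hgx' _
  -- step D
  have hsum0 : (∑ l ∈ Finset.range m', g' ^ l) x = 0 := by
    rw [hw2, ← ppow_mul_apply, hν, geom_sum_mul, hg'm, sub_self]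
    rfl
  have hsum1 : (∑ l ∈ Finset.range m', g' ^ l) x = m' • x := by
    have : ∀ s : Finset ℕ, (∑ l ∈ s, g' ^ l) x = s.card • x := by
      intro s
      induction s using Finset.cons_induction with
      | empty => simp
      | cons c s hc ih =>
        rw [Finset.sum_cons, Finset.card_cons]
        show (g' ^ c) x + (∑ l ∈ s, g' ^ l) x = _
        rw [ih, hg'x, succ_nsmul, add_comm]
    rw [this, Finset.card_range]
  have hm'x : m' • x = 0 := by rw [← hsum1, hsum0]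
  have hd1 : addOrderOf x ∣ p := addOrderOf_dvd_of_nsmul_eq_zero hxp
  have hd2 : addOrderOf x ∣ m' := addOrderOf_dvd_of_nsmul_eq_zero hm'x
  have hcop : Nat.Coprime p m' := (Nat.Prime.coprime_iff_not_dvd hp).2 hm'
  have h1' : addOrderOf x = 1 := Nat.eq_one_of_dvd_coprimes hcop hd1 hd2
  exact hj (AddMonoid.addOrderOf_eq_one_iff.1 h1')

/-- every value of a representation on a finite group has finite order -/
theorem exists_pow_eq_one_of_finite {G : Type*} [Group G] [Finite W] (ρ : G →* AddMonoid.End W) (τ : G) :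
    ∃ m : ℕ, 0 < m ∧ ρ τ ^ m = 1 := by
  have : Finite (AddMonoid.End W) :=
    Finite.of_injective (fun f : AddMonoid.End W => (f : W → W)) DFunLike.coe_injective
  obtain ⟨m, hm, h⟩ := (isOfFinOrder_of_finite (ρ.toHomUnits τ)).exists_pow_eq_one
  refine ⟨m, hm, ?_⟩
  have := congrArg Units.val h
  rwa [Units.val_pow_eq_pow_val, MonoidHom.coe_toHomUnits, Units.val_one] at this

end Fermat.Agent.S43.Tame
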