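/-
Row 37 (S43), block TAME (helper173): THE ORDER OF CHOICES ("two passes"), ready for GLUE.

`r : G_ℚ → End V` (level `H`, `V = W1 F1 n`), `r₀ : G_ℚ → End V₀` (level `Γ₀`), `W ≤ V`, `W₀ ≤ V₀` the `m`-parts,
`d τ = ⟨ε τ⟩` the diamond operator attached to `τ`, `K, K'` the two subgroups of TRIV, `up = π^*`.

Pass 1: `tame_monoid` for `r₀` on `W₀` (hypothesis `(τ - 1)² = 0`) gives `σ₀` generating the image of inertia at level `Γ₀`,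
with `ε σ₀` a generator of `(ℤ/q)ˣ`.  The hypothesis `count` (= COUNT for this `σ₀`) gives `K ∩ K' ∩ W ⊆ up (W₀^{σ₀})`, hence
`(τ - 1) (τ - 1) (τ - d τ) = 0` on `W` for EVERY `τ` in the inertia group, hence (`Cubic.lean`) `r τ` has order prime to `q`.
Pass 2: `tame_monoid` for `r × r₀` on `W × W₀` gives the final `(σ, φ)`.
-/
import Fermat.Agent.S43.Tame.Export
import Fermat.Agent.S43.Tame.Cubic

set_option autoImplicit false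

noncomputable section

namespace Fermat.Agent.S43.Tame

open Fermat.Agent.Lib.InertiaField

section Res

variable {V : Type} [AddCommGroup V]

theorem end_mul_ap (f g : AddMonoid.End V) (x : V) : (f * g) x = f (g x) := rfl

theorem end_one_ap (x : V) : (1 : AddMonoid.End V) x = x := rfl

theorem end_sub_ap (f g : AddMonoid.End V) (x : V) : (f - g) x = f x - g x := rfl

theorem end_zero_ap (x : V) : (0 : AddMonoid.End V) x = 0 := rfl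

/-- restriction of an additive endomorphism to a stable subgroup -/
def resOne (W : AddSubgroup V) (f : AddMonoid.End V) (h : ∀ x ∈ W, f x ∈ W) : AddMonoid.End W :=
  AddMonoidHom.mk' (fun x => ⟨f x, h x x.2⟩) (fun x y => Subtype.ext (map_add f (x : V) (y : V)))

theorem coe_resOne (W : AddSubgroup V) (f : AddMonoid.End V) (h : ∀ x ∈ W, f x ∈ W) (x : W) :
    ((resOne W f h x : W) : V) = f x := rfl

/-- restriction of an action to a stable subgroup -/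
def resEnd (W : AddSubgroup V) (r : GQ →* AddMonoid.End V) (h : ∀ σ, ∀ x ∈ W, r σ x ∈ W) :
    GQ →* AddMonoid.End W where
  toFun σ := resOne W (r σ) (h σ)
  map_one' := by
    refine DFunLike.ext _ _ fun x => Subtype.ext ?_
    rw [coe_resOne, map_one]
    rfl
  map_mul' σ τ := by
    refine DFunLike.ext _ _ fun x => Subtype.ext ?_
    rw [coe_resOne, map_mul]
    rfl

theorem coe_resEnd (W : AddSubgroup V) (r : GQ →* AddMonoid.End V) (h : ∀ σ, ∀ x ∈ W, r σ x ∈ W)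
    (σ : GQ) (x : W) : ((resEnd W r h σ x : W) : V) = r σ x := rfl

theorem coe_pow_apply (W : AddSubgroup V) (f : AddMonoid.End V) (g : AddMonoid.End W)
    (hfg : ∀ x : W, ((g x : W) : V) = f x) (j : ℕ) (x : W) : (((g ^ j) x : W) : V) = (f ^ j) x := by
  induction j generalizing x with
  | zero => rfl
  | succ j ih =>
    rw [pow_succ, pow_succ, end_mul_ap, end_mul_ap, ih, hfg]

theorem resEnd_finLevel (W : AddSubgroup V) (r : GQ →* AddMonoid.End V)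
    (h : ∀ σ, ∀ x ∈ W, r σ x ∈ W)
    (hfin : ∃ L : IntermediateField ℚ Qb, FiniteDimensional ℚ L ∧
      ∀ σ : GQ, (∀ x ∈ L, σ x = x) → r σ = 1) :
    ∃ L : IntermediateField ℚ Qb, FiniteDimensional ℚ L ∧
      ∀ σ : GQ, (∀ x ∈ L, σ x = x) → resEnd W r h σ = 1 := by
  obtain ⟨L, hL, hL'⟩ := hfin
  refine ⟨L, hL, fun σ hσ => DFunLike.ext _ _ fun x => Subtype.ext ?_⟩
  rw [coe_resEnd, hL' σ hσ]
  rfl

end Res

/-- **The two passes.** -/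
theorem two_pass {p q k : ℕ} (hp : p.Prime) (hq : q.Prime) (hqp : q ≠ p)
    (A : ValuationSubring Qb) (hA : A.LiesOverPrime q) {ζ : Qb} (hζ : IsPrimitiveRoot ζ q)
    {V V₀ : Type} [AddCommGroup V] [AddCommGroup V₀]
    (r : GQ →* AddMonoid.End V) (r₀ : GQ →* AddMonoid.End V₀)
    (hfin : ∃ L : IntermediateField ℚ Qb, FiniteDimensional ℚ L ∧
      ∀ σ : GQ, (∀ x ∈ L, σ x = x) → r σ = 1)
    (hfin₀ : ∃ L : IntermediateField ℚ Qb, FiniteDimensional ℚ L ∧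
      ∀ σ : GQ, (∀ x ∈ L, σ x = x) → r₀ σ = 1)
    (W : AddSubgroup V) (W₀ : AddSubgroup V₀)
    (hW : ∀ σ, ∀ x ∈ W, r σ x ∈ W) (hW₀ : ∀ σ, ∀ y ∈ W₀, r₀ σ y ∈ W₀)
    (hpk : ∀ x ∈ W, p ^ k • x = 0) (hpk₀ : ∀ y ∈ W₀, p ^ k • y = 0)
    (d : GQ → AddMonoid.End V)
    (d_W : ∀ τ ∈ A.inertiaSubgroupIn ℚ, ∀ x ∈ W, d τ x ∈ W)
    (d_r : ∀ τ ∈ A.inertiaSubgroupIn ℚ, ∀ x ∈ W, r τ (d τ x) = d τ (r τ x))
    (d_pow : ∀ τ ∈ A.inertiaSubgroupIn ℚ, ∀ x ∈ W, (d τ ^ (q - 1)) x = x)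
    (K K' : AddSubgroup V)
    (K_r : ∀ τ ∈ A.inertiaSubgroupIn ℚ, ∀ x ∈ K, r τ x ∈ K)
    (K_d : ∀ τ ∈ A.inertiaSubgroupIn ℚ, ∀ x ∈ K, d τ x ∈ K)
    (SK : ∀ τ ∈ A.inertiaSubgroupIn ℚ, ∀ x ∈ W, r τ x - x ∈ K)
    (SK' : ∀ τ ∈ A.inertiaSubgroupIn ℚ, ∀ x ∈ W, r τ x - d τ x ∈ K')
    (up : V₀ →+ V)
    (up_r : ∀ τ ∈ A.inertiaSubgroupIn ℚ, ∀ y ∈ W₀, r τ (up y) = up (r₀ τ y))
    (sq₀ : ∀ τ ∈ A.inertiaSubgroupIn ℚ, ∀ y ∈ W₀, r₀ τ (r₀ τ y - y) = r₀ τ y - y)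
    (count : ∀ σ ∈ A.inertiaSubgroupIn ℚ,
      (∀ τ ∈ A.inertiaSubgroupIn ℚ, ∃ j : ℕ, (∀ y ∈ W₀, r₀ τ y = (r₀ σ ^ j) y) ∧ τ ζ = (σ ^ j) ζ) →
      (∀ a : ℕ, ¬ q ∣ a → ∃ j : ℕ, (σ ^ j) ζ = ζ ^ a) →
      ∀ x ∈ W, x ∈ K → x ∈ K' → ∃ y ∈ W₀, r₀ σ y = y ∧ x = up y) :
    ∃ σ ∈ A.inertiaSubgroupIn ℚ, ∃ φ : GQ, A.IsFrobeniusAt φ q ∧ φ ζ = ζ ∧
      (∀ τ ∈ A.inertiaSubgroupIn ℚ, ∃ j : ℕ, (∀ x ∈ W, r τ x = (r σ ^ j) x) ∧
        (∀ y ∈ W₀, r₀ τ y = (r₀ σ ^ j) y) ∧ τ ζ = (σ ^ j) ζ) ∧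
      (∀ a : ℕ, ¬ q ∣ a → ∃ j : ℕ, (σ ^ j) ζ = ζ ^ a) ∧
      (∀ x ∈ W, r φ (r σ x) = (r σ ^ q) (r φ x)) ∧
      (∀ y ∈ W₀, r₀ φ (r₀ σ y) = (r₀ σ ^ q) (r₀ φ y)) := by
  set R : GQ →* AddMonoid.End W := resEnd W r hW with hR
  set R₀ : GQ →* AddMonoid.End W₀ := resEnd W₀ r₀ hW₀ with hR₀
  have hn : ((p ^ k : ℕ) : AddMonoid.End W) = 0 :=
    natCast_end_eq_zero _ fun x => Subtype.ext (by
      rw [AddSubgroup.coe_nsmul, hpk _ x.2]; rfl)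
  have hn₀ : ((p ^ k : ℕ) : AddMonoid.End W₀) = 0 :=
    natCast_end_eq_zero _ fun x => Subtype.ext (by
      rw [AddSubgroup.coe_nsmul, hpk₀ _ x.2]; rfl)
  -- level `Γ₀`
  have tame₀ : ∀ τ ∈ A.inertiaSubgroupIn ℚ, R₀ τ ^ (1 * p ^ k * p ^ k) = 1 := by
    intro τ hτ
    refine pow_eq_one_of_cubic (p ^ k) 1 hn₀ (R₀ τ) 1 (Commute.one_right _) (pow_one _) ?_
    have : (R₀ τ - 1) * (R₀ τ - 1) = 0 := by
      refine DFunLike.ext _ _ fun y => Subtype.ext ?_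
      have h := sq₀ τ hτ y y.2
      show r₀ τ (r₀ τ y - y) - (r₀ τ y - y) = 0
      rw [h, sub_self]
    rw [this, zero_mul]
  have hnd : ¬ q ∣ (q - 1) * p ^ k * p ^ k := not_dvd_mul_pow hp hq hqp k
  have hnd1 : ¬ q ∣ 1 * p ^ k * p ^ k := fun h => hnd (by
    rw [mul_assoc] at h ⊢
    exact Dvd.dvd.mul_left (by simpa using h) _)
  -- pass 1
  obtain ⟨σ₀, hσ₀, -, -, -, g1, g2, -⟩ := tame_monoid hq A hA hζ R₀
    (resEnd_finLevel W₀ r₀ hW₀ hfin₀) (fun τ hτ => ⟨_, hnd1, tame₀ τ hτ⟩)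
  have g1' : ∀ τ ∈ A.inertiaSubgroupIn ℚ,
      ∃ j : ℕ, (∀ y ∈ W₀, r₀ τ y = (r₀ σ₀ ^ j) y) ∧ τ ζ = (σ₀ ^ j) ζ := by
    intro τ hτ
    obtain ⟨j, e1, e2⟩ := g1 τ hτ
    refine ⟨j, fun y hy => ?_, e2⟩
    have h : ((R₀ τ ⟨y, hy⟩ : W₀) : V₀) = (((R₀ σ₀ ^ j) ⟨y, hy⟩ : W₀) : V₀) := by rw [e1]
    rw [coe_pow_apply W₀ (r₀ σ₀) (R₀ σ₀) (fun _ => rfl)] at h
    exact h
  have cnt := count σ₀ hσ₀ g1' g2
  -- a fixed vector of `σ₀` is fixed by its powers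
  have fixpow : ∀ (j : ℕ) (y : V₀), r₀ σ₀ y = y → (r₀ σ₀ ^ j) y = y := by
    intro j y hy
    induction j with
    | zero => rfl
    | succ j ih => rw [pow_succ, end_mul_ap, hy, ih]
  -- the cubic relation
  have tameH : ∀ τ ∈ A.inertiaSubgroupIn ℚ, R τ ^ ((q - 1) * p ^ k * p ^ k) = 1 := by
    intro τ hτ
    set D : AddMonoid.End W := resOne W (d τ) (d_W τ hτ) with hD
    have hc : Commute (R τ) D := by
      refine DFunLike.ext _ _ fun x => Subtype.ext ?_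
      exact d_r τ hτ x x.2
    refine pow_eq_one_of_cubic (p ^ k) (q - 1) hn (R τ) D hc ?_ ?_
    · refine DFunLike.ext _ _ fun x => Subtype.ext ?_
      rw [coe_pow_apply W (d τ) D (fun _ => rfl), d_pow τ hτ x x.2]
      rfl
    · have e : (R τ - 1) * (R τ - 1) * (R τ - D) = (R τ - 1) * ((R τ - D) * (R τ - 1)) := by
        have h1 : Commute (R τ - 1) (R τ - D) :=
          ((Commute.refl (R τ)).sub_left (Commute.one_left _)).sub_right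
            (hc.sub_left (Commute.one_left _))
        rw [mul_assoc, h1.eq]
      rw [e]
      refine DFunLike.ext _ _ fun x => Subtype.ext ?_
      set z : V := r τ x - x with hz
      have hzW : z ∈ W := W.sub_mem (hW τ x x.2) x.2
      have hzK : z ∈ K := SK τ hτ x x.2
      set t : V := r τ z - d τ z with ht
      have htW : t ∈ W := W.sub_mem (hW τ z hzW) (d_W τ hτ z hzW)
      have htK : t ∈ K := K.sub_mem (K_r τ hτ z hzK) (K_d τ hτ z hzK)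
      have htK' : t ∈ K' := SK' τ hτ z hzW
      obtain ⟨y, hy, hy1, hy2⟩ := cnt t htW htK htK'
      obtain ⟨j, e1, -⟩ := g1' τ hτ
      show r τ t - t = 0
      rw [hy2, up_r τ hτ y hy, e1 y hy, fixpow j y hy1, sub_self]
  -- pass 2
  obtain ⟨σ, hσ, φ, hφ, hφζ, f1, f2, f3⟩ := tame_monoid hq A hA hζ (R.prod R₀)
    (by
      obtain ⟨L, hL, hL'⟩ := resEnd_finLevel W r hW hfin
      obtain ⟨L₀, hL₀, hL₀'⟩ := resEnd_finLevel W₀ r₀ hW₀ hfin₀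
      refine ⟨L ⊔ L₀, IntermediateField.finiteDimensional_sup _ _, fun σ hσ => ?_⟩
      exact Prod.ext (hL' σ fun x hx => hσ x ((le_sup_left : L ≤ _) hx))
        (hL₀' σ fun x hx => hσ x ((le_sup_right : L₀ ≤ _) hx)))
    (fun τ hτ => ⟨_, hnd, Prod.ext (tameH τ hτ) (by
      show R₀ τ ^ ((q - 1) * p ^ k * p ^ k) = 1
      have : (q - 1) * p ^ k * p ^ k = (1 * p ^ k * p ^ k) * (q - 1) := by ring
      rw [this, pow_mul, tame₀ τ hτ, one_pow])⟩)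
  have f3a : R φ * R σ = R σ ^ q * R φ := congrArg Prod.fst f3
  have f3b : R₀ φ * R₀ σ = R₀ σ ^ q * R₀ φ := congrArg Prod.snd f3
  refine ⟨σ, hσ, φ, hφ, hφζ, fun τ hτ => ?_, f2, fun x hx => ?_, fun y hy => ?_⟩
  · obtain ⟨j, e1, e2⟩ := f1 τ hτ
    have e1a : R τ = R σ ^ j := congrArg Prod.fst e1
    have e1b : R₀ τ = R₀ σ ^ j := congrArg Prod.snd e1
    refine ⟨j, fun x hx => ?_, fun y hy => ?_, e2⟩
    · have h : ((R τ ⟨x, hx⟩ : W) : V) = (((R σ ^ j) ⟨x, hx⟩ : W) : V) := by rw [e1a]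
      rw [coe_pow_apply W (r σ) (R σ) (fun _ => rfl)] at h
      exact h
    · have h : ((R₀ τ ⟨y, hy⟩ : W₀) : V₀) = (((R₀ σ ^ j) ⟨y, hy⟩ : W₀) : V₀) := by rw [e1b]
      rw [coe_pow_apply W₀ (r₀ σ) (R₀ σ) (fun _ => rfl)] at h
      exact h
  · have h : (((R φ * R σ) ⟨x, hx⟩ : W) : V) = (((R σ ^ q * R φ) ⟨x, hx⟩ : W) : V) := by rw [f3a]
    rw [end_mul_ap, end_mul_ap, coe_pow_apply W (r σ) (R σ) (fun _ => rfl)] at h
    exact h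
  · have h : (((R₀ φ * R₀ σ) ⟨y, hy⟩ : W₀) : V₀) = (((R₀ σ ^ q * R₀ φ) ⟨y, hy⟩ : W₀) : V₀) := by
      rw [f3b]
    rw [end_mul_ap, end_mul_ap, coe_pow_apply W₀ (r₀ σ) (R₀ σ) (fun _ => rfl)] at h
    exact h

end Fermat.Agent.S43.Tame

end
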