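/-
Row 37 (S43), block TAME, helper126: the hypothesis `TameAt` at level `H`, exponent `p ^ k`, WITHOUT the count.

`Tame/Cubic.lean` gets `TameAt` from `K_∞ ∩ K_0 = inc Tor_0`, i.e. from COUNT; but COUNT needs `σ` (and (E') for `σ`), and `σ` comes
from `TameStatement`, which needs `TameAt`: a loop (it can only be broken by running the machine twice).  Here is a direct proof:
`W / T W = W0` equivariantly, `T` is nilpotent and commutes with `τ`, and `(τ - 1) ^ 2 = 0` on `W0` for EVERY `τ` in the inertia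
group (level `Γ₀`: `(τ - 1) W0 ≤ K_∞^0 ∩ W0 ≤ ker (τ - 1)`).  So `τ - 1` is nilpotent on `W`, and `τ ^ (n ^ j) = 1`, `n = p ^ k`.

* `pow_eq_one_of_nilpotent` : `R` a ring with `(n : R) = 0`, `(τ - 1) ^ (r + 1) = 0`  ⟹  `τ ^ (n ^ r) = 1`;
* `sub_one_pow_eq_zero`     : `(τ - 1) ^ (2 N) = 0` on `W` from `T ^ N = 0`, `ker pr ≤ T W`, `(τ₀ - 1) ^ 2 = 0`;
* `dia_sub_one_pow_eq_zero` : `(δ - 1) ^ (p ^ e * k) = 0` from `δ ^ (p ^ e) = 1`, `p ^ k W = 0`;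
* `exists_pow_eq_one`       : the three together.
Mathlib only.
-/
import Mathlib

set_option autoImplicit false

namespace Fermat.Agent.S43.Tame

open Polynomial

/-- `(1 + z) ^ n = 1 + n z + c z ^ 2`. -/
theorem exists_one_add_pow {R : Type*} [CommRing R] (z : R) (n : ℕ) :
    ∃ c : R, (1 + z) ^ n = 1 + (n : R) * z + c * (z * z) := by
  induction n with
  | zero => exact ⟨0, by simp⟩
  | succ n ih =>
    obtain ⟨g, hg⟩ := ih
    refine ⟨g * (1 + z) + (n : R), ?_⟩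
    rw [pow_succ, hg]
    push_cast
    ring

/-- `X ^ (n ^ j) ∈ 1 + (n, (X - 1) ^ (j + 1))`. -/
theorem exists_X_pow_eq (n j : ℕ) :
    ∃ g₁ g₂ : ℤ[X], (X : ℤ[X]) ^ (n ^ j) = 1 + (n : ℤ[X]) * g₁ + g₂ * (X - 1) ^ (j + 1) := by
  induction j with
  | zero => exact ⟨0, 1, by simp⟩
  | succ j ih =>
    obtain ⟨g₁, g₂, e⟩ := ih
    obtain ⟨c, hc⟩ := exists_one_add_pow ((n : ℤ[X]) * g₁ + g₂ * (X - 1) ^ (j + 1)) n
    refine ⟨(n : ℤ[X]) * g₁ + g₂ * (X - 1) ^ (j + 1) +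
      c * ((n : ℤ[X]) * g₁ * g₁ + 2 * g₁ * g₂ * (X - 1) ^ (j + 1)), c * g₂ * g₂ * (X - 1) ^ j, ?_⟩
    rw [pow_succ, pow_mul, e, add_assoc, hc]
    ring

section Ring

variable {R : Type*} [Ring R]

/-- unipotent elements have `n`-power order when `n = 0` in `R`. -/
theorem pow_eq_one_of_nilpotent (n : ℕ) (hn : (n : R) = 0) (τ : R) (r : ℕ)
    (h : (τ - 1) ^ (r + 1) = 0) : τ ^ (n ^ r) = 1 := by
  obtain ⟨g₁, g₂, e⟩ := exists_X_pow_eq n r
  have h2 := congrArg (aeval τ) e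
  simp only [map_pow, map_add, map_one, aeval_X, map_mul, map_natCast, map_sub] at h2
  rw [h2, hn, h, zero_mul, mul_zero, add_zero, add_zero]

end Ring

section Group

variable {W W₀ : Type*} [AddCommGroup W] [AddCommGroup W₀]

/-- `(τ - 1) ^ (2 N) = 0` on `W`. -/
theorem sub_one_pow_eq_zero (T τ : AddMonoid.End W) (hc : Commute τ T) (N : ℕ) (hT : T ^ N = 0)
    (pr : W →+ W₀) (ker_pr : ∀ x, pr x = 0 → ∃ y, x = T y) (τ₀ : AddMonoid.End W₀)
    (hpr : ∀ x, pr (τ x) = τ₀ (pr x)) (h0 : ∀ y, τ₀ (τ₀ y - y) = τ₀ y - y) :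
    (τ - 1) ^ (2 * N) = 0 := by
  set ν : AddMonoid.End W := τ - 1 with hν
  have νap : ∀ x, ν x = τ x - x := fun _ => rfl
  have hνT : Commute ν T := hc.sub_left (Commute.one_left _)
  have h2 : ∀ x, ∃ y, (ν ^ 2) x = T y := by
    intro x
    apply ker_pr
    have : (ν ^ 2) x = ν (ν x) := by rw [pow_two]; rfl
    rw [this, νap, νap, map_sub, hpr, map_sub, hpr, h0, sub_self]
  have key : ∀ j : ℕ, ∀ x, ∃ y, (ν ^ (2 * j)) x = (T ^ j) y := by
    intro j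
    induction j with
    | zero => intro x; exact ⟨x, rfl⟩
    | succ j ih =>
      intro x
      obtain ⟨y, hy⟩ := ih x
      obtain ⟨z, hz⟩ := h2 y
      refine ⟨z, ?_⟩
      have e1 : (ν ^ (2 * (j + 1))) x = (ν ^ 2) ((ν ^ (2 * j)) x) := by
        rw [mul_add, mul_one, add_comm, pow_add]
        rfl
      have e2 : (ν ^ 2) ((T ^ j) y) = (T ^ j) ((ν ^ 2) y) := by
        have := ((hνT.pow_left 2).pow_right j).eq
        exact DFunLike.congr_fun this y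
      rw [e1, hy, e2, hz, pow_succ]
      rfl
  refine AddMonoidHom.ext fun x => ?_
  obtain ⟨y, hy⟩ := key N x
  rw [hT] at hy
  exact hy

/-- `T = δ - 1` is nilpotent. -/
theorem dia_sub_one_pow_eq_zero (p : ℕ) [Fact p.Prime] (e k : ℕ) (hW : ∀ x : W, p ^ k • x = 0)
    (δ : AddMonoid.End W) (hδ : δ ^ (p ^ e) = 1) : (δ - 1) ^ (p ^ e * k) = 0 := by
  obtain ⟨g, hg⟩ : ∃ g : ℤ[X], ((X : ℤ[X]) - 1) ^ (p ^ e) = X ^ (p ^ e) - 1 + (p : ℤ[X]) * g := by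
    have hd : C (p : ℤ) ∣ ((X : ℤ[X]) - 1) ^ (p ^ e) - (X ^ (p ^ e) - 1) := by
      rw [C_dvd_iff_dvd_coeff]
      intro i
      have h0 : (((X : ℤ[X]) - 1) ^ (p ^ e) - (X ^ (p ^ e) - 1)).map (Int.castRingHom (ZMod p)) = 0 := by
        simp only [Polynomial.map_sub, Polynomial.map_pow, map_X, Polynomial.map_one]
        rw [sub_pow_char_pow, one_pow, sub_self]
      have h := congrArg (fun r => coeff r i) h0
      simp only [coeff_map, coeff_zero] at h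
      exact (ZMod.intCast_zmod_eq_zero_iff_dvd _ p).1 h
    obtain ⟨g, hg⟩ := hd
    refine ⟨g, ?_⟩
    have : (C (p : ℤ) : ℤ[X]) = (p : ℤ[X]) := by simp
    rw [← this, ← hg]
    ring
  have hg2 : ((X : ℤ[X]) - 1) ^ (p ^ e * k) = (X ^ (p ^ e) - 1 + (p : ℤ[X]) * g) ^ k := by
    rw [pow_mul, hg]
  have h := congrArg (aeval δ) hg2
  simp only [map_pow, map_add, map_one, aeval_X, map_mul, map_natCast, map_sub] at h
  rw [h, hδ, sub_self, zero_add, (Nat.cast_commute p _).mul_pow, ← Nat.cast_pow]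
  have : ((p ^ k : ℕ) : AddMonoid.End W) = 0 := AddMonoidHom.ext fun x => hW x
  rw [this, zero_mul]

/-- **`TameAt` at level `H`** from level `Γ₀`: every `τ` commuting with `δ`, compatible with `pr`, with `(τ₀ - 1) ^ 2 = 0`, has
`p`-power order on `W`. -/
theorem exists_pow_eq_one (p : ℕ) [Fact p.Prime] (e k : ℕ) (hW : ∀ x : W, p ^ k • x = 0)
    (δ : AddMonoid.End W) (hδ : δ ^ (p ^ e) = 1) (τ : AddMonoid.End W) (hc : Commute τ δ)
    (pr : W →+ W₀) (ker_pr : ∀ x, pr x = 0 → ∃ y, x = δ y - y) (τ₀ : AddMonoid.End W₀)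
    (hpr : ∀ x, pr (τ x) = τ₀ (pr x)) (h0 : ∀ y, τ₀ (τ₀ y - y) = τ₀ y - y) :
    ∃ s : ℕ, τ ^ (p ^ s) = 1 := by
  have h1 := sub_one_pow_eq_zero (δ - 1) τ (hc.sub_right (Commute.one_right _)) (p ^ e * k)
    (dia_sub_one_pow_eq_zero p e k hW δ hδ) pr ker_pr τ₀ hpr h0
  have h2 : (τ - 1) ^ (2 * (p ^ e * k) + 1) = 0 := by rw [pow_succ, h1, zero_mul]
  have h3 := pow_eq_one_of_nilpotent (p ^ k) (by
    exact AddMonoidHom.ext fun x => hW x) τ _ h2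
  exact ⟨k * (2 * (p ^ e * k)), by rw [pow_mul]; exact h3⟩

/-- the shape of `Tame.tame_monoid`'s hypothesis. -/
theorem exists_not_dvd_pow_eq_one (p q : ℕ) [Fact p.Prime] (hq : q.Prime) (hqp : q ≠ p) (e k : ℕ)
    (hW : ∀ x : W, p ^ k • x = 0)
    (δ : AddMonoid.End W) (hδ : δ ^ (p ^ e) = 1) (τ : AddMonoid.End W) (hc : Commute τ δ)
    (pr : W →+ W₀) (ker_pr : ∀ x, pr x = 0 → ∃ y, x = δ y - y) (τ₀ : AddMonoid.End W₀)
    (hpr : ∀ x, pr (τ x) = τ₀ (pr x)) (h0 : ∀ y, τ₀ (τ₀ y - y) = τ₀ y - y) :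
    ∃ m : ℕ, ¬ q ∣ m ∧ τ ^ m = 1 := by
  obtain ⟨s, hs⟩ := exists_pow_eq_one p e k hW δ hδ τ hc pr ker_pr τ₀ hpr h0
  refine ⟨p ^ s, fun h => hqp ?_, hs⟩
  exact (Nat.prime_dvd_prime_iff_eq hq Fact.out).1 (hq.dvd_of_dvd_pow h)

end Group

end Fermat.Agent.S43.Tame
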